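import Mathlib
import Fermat.Prelude.Def_GaloisRep_DeformationCondition

/-!
# Artinian test algebras

Elementary facts on artinian local algebras over a local ring `𝒪` with the same residue field:
finiteness when the residue field is finite (`IsTest.finite`, `IsTest.natCard_le`) and quotients
by ideals between a maximal ideal and one of its powers (`isTest_quotient`).
-/

set_option autoImplicit false

noncomputable section

open IsLocalRing

namespace Fermat.Agent.Deformation

open GaloisRep (IsArtinianTestAlgebra)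

variable {𝒪 : Type} [CommRing 𝒪] [IsLocalRing 𝒪] {A B : Type} [CommRing A] [CommRing B]
  [Algebra 𝒪 A] [Algebra 𝒪 B]

section Residue

variable [IsLocalRing A] [IsLocalHom (algebraMap 𝒪 A)]

omit [IsLocalHom (algebraMap 𝒪 A)] [IsLocalRing 𝒪] in
/-- Surjectivity onto the residue field, in terms of elements. -/
lemma exists_sub_algebraMap_mem (h : Function.Surjective (residue A ∘ algebraMap 𝒪 A)) (a : A) :
    ∃ r : 𝒪, a - algebraMap 𝒪 A r ∈ maximalIdeal A := by
  obtain ⟨r, hr⟩ := h (residue A a)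
  refine ⟨r, (residue_eq_zero_iff _).mp ?_⟩
  rw [map_sub, ← hr]
  exact sub_self _

omit [IsLocalHom (algebraMap 𝒪 A)] [IsLocalRing 𝒪] in
/-- Surjectivity onto the residue field from approximation by scalars. -/
lemma residue_comp_surjective (h : ∀ a : A, ∃ r : 𝒪, a - algebraMap 𝒪 A r ∈ maximalIdeal A) :
    Function.Surjective (residue A ∘ algebraMap 𝒪 A) := by
  intro z
  obtain ⟨a, rfl⟩ := IsLocalRing.residue_surjective z
  obtain ⟨r, hr⟩ := h a
  refine ⟨r, (sub_eq_zero.mp ?_).symm⟩
  show residue A a - residue A (algebraMap 𝒪 A r) = 0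
  rw [← map_sub, residue_eq_zero_iff]
  exact hr

lemma resMap_bijective (h : Function.Surjective (residue A ∘ algebraMap 𝒪 A)) :
    Function.Bijective (ResidueField.map (algebraMap 𝒪 A)) := by
  refine ⟨RingHom.injective _, fun z => ?_⟩
  obtain ⟨r, hr⟩ := h z
  exact ⟨residue 𝒪 r, hr⟩

lemma natCard_residueField (h : Function.Surjective (residue A ∘ algebraMap 𝒪 A)) :
    Nat.card (ResidueField A) = Nat.card (ResidueField 𝒪) :=
  (Nat.card_eq_of_bijective _ (resMap_bijective h)).symm

lemma finite_residueField [Finite (ResidueField 𝒪)]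
    (h : Function.Surjective (residue A ∘ algebraMap 𝒪 A)) : Finite (ResidueField A) :=
  Finite.of_surjective _ (resMap_bijective h).2

end Residue

section Basic

variable [IsLocalRing A] [IsLocalRing B]

omit [IsLocalRing 𝒪] in
/-- Any algebra map out of an artinian local ring into a local ring is local. -/
lemma isLocalHom_algHom [IsArtinianRing A] (φ : A →ₐ[𝒪] B) : IsLocalHom (φ : A →+* B) := by
  refine ⟨fun a ha => ?_⟩
  by_contra hna
  obtain ⟨n, hn⟩ := (isArtinianRing_iff_isNilpotent_maximalIdeal A).mp ‹_›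
  have h0 : a ^ n = 0 := by
    have h := Ideal.pow_mem_pow ((IsLocalRing.mem_maximalIdeal a).mpr hna) n
    rwa [hn] at h
  have hB : IsNilpotent ((φ : A →+* B) a) := ⟨n, by rw [← map_pow, h0, map_zero]⟩
  exact not_isUnit_zero (M₀ := B) (by
    obtain ⟨m, hm⟩ := hB
    rw [← hm]
    exact ha.pow m)

variable (A) in
/-- The maximal ideal of a test algebra is nilpotent. -/
lemma exists_maximalIdeal_pow_eq_bot [IsArtinianRing A] : ∃ n : ℕ, maximalIdeal A ^ n = ⊥ :=
  (isArtinianRing_iff_isNilpotent_maximalIdeal A).mp ‹_›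

omit [IsLocalRing 𝒪] in
/-- A finite local algebra with trivial residue extension is a test algebra. -/
lemma isTest_of_finite [Finite A] (hloc : IsLocalHom (algebraMap 𝒪 A))
    (h : ∀ a : A, ∃ r : 𝒪, a - algebraMap 𝒪 A r ∈ maximalIdeal A) : IsArtinianTestAlgebra 𝒪 A :=
  ⟨hloc, residue_comp_surjective h, inferInstance⟩

/-- A test algebra is finite. -/
lemma IsTest.finite [Finite (ResidueField 𝒪)] (hA : IsArtinianTestAlgebra 𝒪 A) : Finite A := by
  have := hA.isLocalHom
  have := hA.isArtinian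
  have hfin := finite_residueField hA.residue_surjective
  have : Finite (A ⧸ maximalIdeal A) := hfin
  obtain ⟨n, hn⟩ := exists_maximalIdeal_pow_eq_bot A
  have := Ideal.finite_quotient_pow (IsNoetherian.noetherian (maximalIdeal A)) n
  refine Finite.of_injective (Ideal.Quotient.mk (maximalIdeal A ^ n)) ?_
  rw [RingHom.injective_iff_ker_eq_bot, Ideal.mk_ker, hn]

/-- Bound on the cardinality of a test algebra. -/
lemma IsTest.natCard_le [Finite (ResidueField 𝒪)] (hA : IsArtinianTestAlgebra 𝒪 A) {n : ℕ}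
    (hn : maximalIdeal A ^ n = ⊥) {N : ℕ} (s : Finset A)
    (hs : Ideal.span (s : Set A) = maximalIdeal A) (hN : s.card ≤ N) :
    Nat.card A ≤ Nat.card (ResidueField 𝒪) ^ ∑ i ∈ Finset.range n, N ^ i := by
  have := hA.isLocalHom
  have hfin := finite_residueField hA.residue_surjective
  have : Finite (A ⧸ maximalIdeal A) := hfin
  have h1 := Ideal.index_pow_le (I := maximalIdeal A) s hs n
  have h2 : (maximalIdeal A ^ n).toAddSubgroup.index = Nat.card A := by
    rw [hn]
    exact AddSubgroup.index_bot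
  have h3 : (maximalIdeal A).toAddSubgroup.index = Nat.card (ResidueField 𝒪) :=
    natCard_residueField hA.residue_surjective
  rw [h2, h3] at h1
  exact h1.trans (Nat.pow_le_pow_right Nat.card_pos
    (Finset.sum_le_sum fun i _ => Nat.pow_le_pow_left hN i))

end Basic

section Quotient

variable {P : Type} [CommRing P] [Algebra 𝒪 P] {MM : Ideal P} [MM.IsMaximal] {K : Ideal P}

omit [IsLocalRing 𝒪] [Algebra 𝒪 P] in
/-- A quotient between a maximal ideal and one of its powers is local. -/
lemma isLocalRing_quotient {n : ℕ} (h1 : MM ^ n ≤ K) (h2 : K ≤ MM) : IsLocalRing (P ⧸ K) := by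
  have : (MM.map (Ideal.Quotient.mk K)).IsMaximal :=
    Ideal.IsMaximal.map_of_surjective_of_ker_le Ideal.Quotient.mk_surjective (by simpa using h2)
  refine IsLocalRing.of_unique_max_ideal ⟨MM.map (Ideal.Quotient.mk K), ‹_›, fun Q hQ => ?_⟩
  have hQ' : (Q.comap (Ideal.Quotient.mk K)).IsMaximal :=
    Ideal.comap_isMaximal_of_surjective _ Ideal.Quotient.mk_surjective
  have h3 : MM ^ n ≤ Q.comap (Ideal.Quotient.mk K) := h1.trans (fun a ha => by
    rw [Ideal.mem_comap, Ideal.Quotient.eq_zero_iff_mem.mpr ha]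
    exact Q.zero_mem)
  have h4 : MM ≤ Q.comap (Ideal.Quotient.mk K) := hQ'.isPrime.le_of_pow_le h3
  have h5 : MM = Q.comap (Ideal.Quotient.mk K) := Ideal.IsMaximal.eq_of_le ‹_› hQ'.ne_top h4
  rw [h5, Ideal.map_comap_of_surjective _ Ideal.Quotient.mk_surjective]

omit [IsLocalRing 𝒪] [Algebra 𝒪 P] in
lemma maximalIdeal_quotient [IsLocalRing (P ⧸ K)] (h2 : K ≤ MM) :
    maximalIdeal (P ⧸ K) = MM.map (Ideal.Quotient.mk K) := by
  have : (MM.map (Ideal.Quotient.mk K)).IsMaximal :=
    Ideal.IsMaximal.map_of_surjective_of_ker_le Ideal.Quotient.mk_surjective (by simpa using h2)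
  exact (IsLocalRing.eq_maximalIdeal ‹_›).symm

/-- A finite such quotient is a test algebra. -/
lemma isTest_quotient [IsLocalRing (P ⧸ K)] [Finite (P ⧸ K)] (h2 : K ≤ MM)
    (hres : ∀ p : P, ∃ r : 𝒪, p - algebraMap 𝒪 P r ∈ MM)
    (hloc : ∀ r ∈ maximalIdeal 𝒪, algebraMap 𝒪 P r ∈ MM) :
    IsArtinianTestAlgebra 𝒪 (P ⧸ K) := by
  refine isTest_of_finite ⟨fun r hr => ?_⟩ fun a => ?_
  · by_contra hnu
    have h := Ideal.mem_map_of_mem (Ideal.Quotient.mk K)
      (hloc r ((IsLocalRing.mem_maximalIdeal r).mpr hnu))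
    rw [← maximalIdeal_quotient h2, Ideal.Quotient.mk_algebraMap] at h
    exact (IsLocalRing.mem_maximalIdeal _).mp h hr
  · obtain ⟨p, rfl⟩ := Ideal.Quotient.mk_surjective a
    obtain ⟨r, hr⟩ := hres p
    refine ⟨r, ?_⟩
    rw [maximalIdeal_quotient h2, ← Ideal.Quotient.mk_algebraMap, ← map_sub]
    exact Ideal.mem_map_of_mem _ hr

end Quotient

end Fermat.Agent.Deformation

end
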