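import Fermat.Agent.Deformation.Normalise
import Fermat.Agent.Deformation.TestAlgebra

/-!
# Admissible ideals of the universal matrix-entry algebra

Normalised deformations of type `𝒟` over test algebras are recorded by the kernels of their
evaluation maps from `𝒪[X_{σ,i,j}]` (`IsAdm`).  Main results: `IsAdm.quotGood` and the closure of
admissible ideals under enlargement and intersection (`IsAdm.of_le`, `IsAdm.inf`).
-/

set_option autoImplicit false

noncomputable section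

open IsLocalRing MvPolynomial

namespace Fermat.Agent.Deformation

open GaloisRep (IsArtinianTestAlgebra IsDeformationCondition)

/-- The index type of matrix entries. -/
abbrev EntryIdx : Type := GQ × Fin 2 × Fin 2

variable (𝒪 : Type) [CommRing 𝒪] [IsLocalRing 𝒪]

/-- The polynomial algebra on all matrix entries. -/
abbrev EntryRing : Type := MvPolynomial EntryIdx 𝒪

/-- The tautological matrix valued function. -/
def tautMat : GQ → M2 (EntryRing 𝒪) := fun σ => Matrix.of fun i j => X (σ, i, j)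

variable {𝒪} {A B C : Type} [CommRing A] [CommRing B] [CommRing C] [Algebra 𝒪 A] [Algebra 𝒪 B]
  [Algebra 𝒪 C]

/-- Evaluation of the entry algebra at a matrix representation. -/
def repEval (M : GQ →* M2 A) : EntryRing 𝒪 →ₐ[𝒪] A := aeval fun t => M t.1 t.2.1 t.2.2

omit [IsLocalRing 𝒪] in
lemma repEval_taut (M : GQ →* M2 A) (σ : GQ) : (tautMat 𝒪 σ).map (repEval M) = M σ := by
  ext i j
  simp [tautMat, repEval]

omit [IsLocalRing 𝒪] in
lemma repEval_comp (φ : A →ₐ[𝒪] B) (M : GQ →* M2 A) :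
    φ.comp (repEval M) = repEval (mapRep (φ : A →+* B) M) := by
  refine MvPolynomial.algHom_ext fun t => ?_
  simp [repEval]

omit [IsLocalRing 𝒪] in
lemma eq_repEval {M : GQ →* M2 A} (f : EntryRing 𝒪 →ₐ[𝒪] A)
    (h : ∀ σ i j, f (X (σ, i, j)) = M σ i j) : f = repEval M :=
  MvPolynomial.algHom_ext fun t => by simpa [repEval] using h t.1 t.2.1 t.2.2

omit [IsLocalRing 𝒪] in
/-- A matrix function becomes multiplicative if it does so after an injective map. -/
lemma exists_hom_of_injective (E : GQ → M2 C) (φ : C →+* A) (hφ : Function.Injective φ)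
    (M : GQ →* M2 A) (h : ∀ σ, (E σ).map φ = M σ) : ∃ N : GQ →* M2 C, ∀ σ, N σ = E σ := by
  have hinj : Function.Injective fun m : M2 C => m.map φ := fun m m' hm =>
    Matrix.ext fun i j => hφ (congrFun (congrFun hm i) j)
  refine ⟨{ toFun := E, map_one' := hinj ?_, map_mul' := fun σ τ => hinj ?_ }, fun σ => rfl⟩
  · show (E 1).map φ = (1 : M2 C).map φ
    rw [h, map_one, Matrix.map_one _ φ.map_zero φ.map_one]
  · show (E (σ * τ)).map φ = (E σ * E τ).map φ
    rw [h, map_mul, Matrix.map_mul, h, h]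

variable (D : RigidData 𝒪)
  (𝒟 : ∀ ⦃A : Type⦄ [CommRing A] [IsLocalRing A] [Algebra 𝒪 A], GaloisRepAdic A → Prop)

/-- The residual evaluation map. -/
def psi0 : EntryRing 𝒪 →ₐ[𝒪] ResidueField 𝒪 := repEval D.M0

/-- The augmentation ideal of the entry algebra. -/
def augIdeal : Ideal (EntryRing 𝒪) := RingHom.ker (psi0 D)

lemma psi0_surjective : Function.Surjective (psi0 D) := fun z => by
  obtain ⟨r, rfl⟩ := residue_surjective z
  exact ⟨algebraMap 𝒪 _ r, (psi0 D).commutes r⟩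

instance augIdeal_isMaximal : (augIdeal D).IsMaximal :=
  RingHom.ker_isMaximal_of_surjective _ (psi0_surjective D)

lemma augIdeal_approx (p : EntryRing 𝒪) : ∃ r : 𝒪, p - algebraMap 𝒪 _ r ∈ augIdeal D := by
  obtain ⟨r, hr⟩ := residue_surjective (psi0 D p)
  refine ⟨r, ?_⟩
  rw [augIdeal, RingHom.mem_ker, map_sub, AlgHom.commutes, ← hr]
  exact sub_self _

lemma algebraMap_mem_augIdeal {r : 𝒪} (hr : r ∈ maximalIdeal 𝒪) :
    algebraMap 𝒪 (EntryRing 𝒪) r ∈ augIdeal D := by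
  rw [augIdeal, RingHom.mem_ker, AlgHom.commutes]
  exact (residue_eq_zero_iff r).mpr hr

variable [IsLocalRing A] [IsLocalRing B] [IsLocalRing C]

/-- A normalised lift of type `𝒟`. -/
structure IsGood (M : GQ →* M2 A) [IsLocalHom (algebraMap 𝒪 A)] : Prop where
  normal : D.IsNormal M
  isD : ∃ ρ : GaloisRepAdic A, IsMatrixRep ρ M ∧ 𝒟 ρ

variable {D} {𝒟}

/-- The residual evaluation factors every evaluation at a lift. -/
lemma RigidData.IsLift.repEval_residue [IsLocalHom (algebraMap 𝒪 A)] {M : GQ →* M2 A}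
    (h : D.IsLift M) (p : EntryRing 𝒪) :
    residue A (repEval M p) = ResidueField.map (algebraMap 𝒪 A) (psi0 D p) := by
  have h1 : (residue A).comp (repEval (𝒪 := 𝒪) M : EntryRing 𝒪 →+* A) =
      (ResidueField.map (algebraMap 𝒪 A)).comp (psi0 D : EntryRing 𝒪 →+* ResidueField 𝒪) := by
    refine MvPolynomial.ringHom_ext (fun r => ?_) fun t => ?_
    · show residue A (repEval M (algebraMap 𝒪 (EntryRing 𝒪) r)) =
        ResidueField.map (algebraMap 𝒪 A) (psi0 D (algebraMap 𝒪 (EntryRing 𝒪) r))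
      rw [AlgHom.commutes, AlgHom.commutes]
      rfl
    · show residue A (repEval M (X t)) = ResidueField.map (algebraMap 𝒪 A) (psi0 D (X t))
      simp only [repEval, psi0, aeval_X]
      exact congrFun (congrFun (DFunLike.congr_fun h t.1) t.2.1) t.2.2
  exact RingHom.congr_fun h1 p

lemma RigidData.IsLift.repEval_mem_iff [IsLocalHom (algebraMap 𝒪 A)] {M : GQ →* M2 A}
    (h : D.IsLift M) (p : EntryRing 𝒪) :
    repEval M p ∈ maximalIdeal A ↔ p ∈ augIdeal D := by
  rw [← residue_eq_zero_iff, h.repEval_residue, augIdeal, RingHom.mem_ker,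
    map_eq_zero_iff _ (RingHom.injective _)]

lemma RigidData.IsLift.ker_le [IsLocalHom (algebraMap 𝒪 A)] {M : GQ →* M2 A} (h : D.IsLift M) :
    RingHom.ker (repEval (𝒪 := 𝒪) M) ≤ augIdeal D := fun p hp =>
  (h.repEval_mem_iff p).mp (by rw [RingHom.mem_ker.mp hp]; exact zero_mem _)

lemma RigidData.IsLift.pow_le_ker [IsLocalHom (algebraMap 𝒪 A)] {M : GQ →* M2 A} (h : D.IsLift M)
    {n : ℕ} (hn : maximalIdeal A ^ n = ⊥) : augIdeal D ^ n ≤ RingHom.ker (repEval (𝒪 := 𝒪) M) := by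
  intro p hp
  have h1 : repEval M p ∈ ((augIdeal D) ^ n).map (repEval M) := Ideal.mem_map_of_mem _ hp
  rw [Ideal.map_pow] at h1
  have h2 : (augIdeal D).map (repEval M) ≤ maximalIdeal A :=
    Ideal.map_le_iff_le_comap.mpr fun q hq => (h.repEval_mem_iff q).mpr hq
  have h3 := Ideal.pow_right_mono h2 n h1
  rw [hn] at h3
  exact h3

section Functorial

variable [IsLocalHom (algebraMap 𝒪 A)] [IsLocalHom (algebraMap 𝒪 B)]

/-- Good lifts push forward along maps of test algebras. -/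
lemma IsGood.map (h𝒟 : IsDeformationCondition 𝒪 𝒟) (hA : IsArtinianTestAlgebra 𝒪 A)
    (hB : IsArtinianTestAlgebra 𝒪 B) {M : GQ →* M2 A} (h : IsGood D 𝒟 M) (φ : A →ₐ[𝒪] B) :
    IsGood D 𝒟 (mapRep (φ : A →+* B) M) := by
  have := hA.isArtinian
  have hφ := isLocalHom_algHom φ
  obtain ⟨ρ, hρ, hD⟩ := h.isD
  exact ⟨h.normal.map φ, _, hρ.baseChangeAlong _ hφ, h𝒟.baseChangeAlong hA hB φ hφ hD⟩

/-- Normality descends along an injective map. -/
lemma RigidData.IsNormal.of_map {M : GQ →* M2 A} (φ : A →ₐ[𝒪] B) (hφl : IsLocalHom (φ : A →+* B))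
    (hφ : Function.Injective φ) (h : D.IsNormal (mapRep (φ : A →+* B) M)) : D.IsNormal M := by
  have hev : ∀ x : GQ →₀ 𝒪, evalComb (mapRep (φ : A →+* B) M : GQ → M2 B) x =
      (evalComb (M : GQ → M2 A) x).map φ := fun x =>
    (evalComb_map (𝒪 := 𝒪) (φ : A →+* B) (fun r => φ.commutes r) _ x).symm
  refine ⟨?_, hφ ?_, hφ ?_, hφ ?_⟩
  · refine mapRep_injective (φ := ResidueField.map (φ : A →+* B)) (RingHom.injective _) ?_
    rw [mapRep_comp, ResidueField.map_comp_residue, ← mapRep_comp, h.lift, mapRep_comp]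
    refine congrArg (fun f => mapRep f D.M0) (Ideal.Quotient.ringHom_ext (RingHom.ext fun r => ?_))
    show residue B (algebraMap 𝒪 B r) = residue B (φ (algebraMap 𝒪 A r))
    rw [φ.commutes]
  · have := h.a01
    rw [hev, Matrix.map_apply] at this
    rw [map_zero]; exact this
  · have := h.a10
    rw [hev, Matrix.map_apply] at this
    rw [map_zero]; exact this
  · have := h.b01
    rw [hev, Matrix.map_apply] at this
    rw [map_one]; exact this

omit [IsLocalHom (algebraMap 𝒪 A)] [IsLocalHom (algebraMap 𝒪 B)] in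
/-- Continuity descends along an injective map of artinian rings. -/
lemma matCont_of_injective [IsArtinianRing B] {M : GQ →* M2 A} (φ : A →+* B)
    (hφ : Function.Injective φ) (h : MatCont (mapRep φ M)) : MatCont M := by
  intro m
  obtain ⟨n, hn⟩ := exists_maximalIdeal_pow_eq_bot B
  obtain ⟨L, hL, hL'⟩ := h n
  refine ⟨L, hL, fun σ hσ i j => ?_⟩
  have h1 := hL' σ hσ i j
  rw [hn, Submodule.mem_bot, sub_eq_zero, mapRep_apply, Matrix.map_apply] at h1
  have h2 : M σ i j = (1 : M2 A) i j := hφ (by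
    rw [h1, ← Matrix.map_apply (M := (1 : M2 A)) (f := φ),
      Matrix.map_one _ φ.map_zero φ.map_one])
  rw [h2, sub_self]
  exact zero_mem _

/-- Goodness descends along an injective map of test algebras. -/
lemma IsGood.of_map (h𝒟 : IsDeformationCondition 𝒪 𝒟) (hA : IsArtinianTestAlgebra 𝒪 A)
    (hB : IsArtinianTestAlgebra 𝒪 B) {M : GQ →* M2 A} (φ : A →ₐ[𝒪] B) (hφ : Function.Injective φ)
    (h : IsGood D 𝒟 (mapRep (φ : A →+* B) M)) : IsGood D 𝒟 M := by
  have := hA.isArtinian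
  have := hB.isArtinian
  have hφl := isLocalHom_algHom φ
  obtain ⟨ρ, hρ, hD⟩ := h.isD
  have hc : MatCont M := matCont_of_injective _ hφ hρ.matCont
  refine ⟨h.normal.of_map φ hφl hφ, ofMatrix M hc, isMatrixRep_ofMatrix M hc, ?_⟩
  refine h𝒟.of_baseChangeAlong_injective hA hB φ hφl hφ ?_
  exact h𝒟.of_isEquiv hB
    (hρ.isEquiv ((isMatrixRep_ofMatrix M hc).baseChangeAlong _ hφl)) hD

end Functorial

variable (D 𝒟) in
/-- `I` is the kernel of the evaluation at a good lift over a test algebra. -/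
def IsAdm (I : Ideal (EntryRing 𝒪)) : Prop :=
  ∃ (A : Type) (_ : CommRing A) (_ : IsLocalRing A) (_ : Algebra 𝒪 A)
    (_ : IsLocalHom (algebraMap 𝒪 A)) (M : GQ →* M2 A),
    IsArtinianTestAlgebra 𝒪 A ∧ IsGood D 𝒟 M ∧ I = RingHom.ker (repEval (𝒪 := 𝒪) M)

/-- The quotient by an admissible ideal is a test algebra with a good tautological lift. -/
structure QuotGood (D : RigidData 𝒪)
    (𝒟 : ∀ ⦃A : Type⦄ [CommRing A] [IsLocalRing A] [Algebra 𝒪 A], GaloisRepAdic A → Prop)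
    (I : Ideal (EntryRing 𝒪)) [IsLocalRing (EntryRing 𝒪 ⧸ I)]
    [IsLocalHom (algebraMap 𝒪 (EntryRing 𝒪 ⧸ I))] : Prop where
  isTest : IsArtinianTestAlgebra 𝒪 (EntryRing 𝒪 ⧸ I)
  finite : Finite (EntryRing 𝒪 ⧸ I)
  le : I ≤ augIdeal D
  exists_pow_le : ∃ n, augIdeal D ^ n ≤ I
  exists_good : ∃ M : GQ →* M2 (EntryRing 𝒪 ⧸ I),
    IsGood D 𝒟 M ∧ ∀ σ, M σ = (tautMat 𝒪 σ).map (Ideal.Quotient.mk I)

lemma QuotGood.isAdm {I : Ideal (EntryRing 𝒪)} [IsLocalRing (EntryRing 𝒪 ⧸ I)]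
    [IsLocalHom (algebraMap 𝒪 (EntryRing 𝒪 ⧸ I))] (h : QuotGood D 𝒟 I) : IsAdm D 𝒟 I := by
  obtain ⟨M, hM, hMσ⟩ := h.exists_good
  refine ⟨_, inferInstance, inferInstance, inferInstance, inferInstance, M, h.isTest, hM, ?_⟩
  have he : Ideal.Quotient.mkₐ 𝒪 I = repEval M :=
    eq_repEval _ fun σ i j => by rw [hMσ σ]; rfl
  rw [← he]
  exact (Ideal.Quotient.mkₐ_ker 𝒪 I).symm

variable [Finite (ResidueField 𝒪)] (h𝒟 : IsDeformationCondition 𝒪 𝒟)
include h𝒟

/-- The quotient by an admissible ideal is a test algebra whose tautological lift is good. -/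
lemma IsAdm.quotGood {I : Ideal (EntryRing 𝒪)} (h : IsAdm D 𝒟 I) :
    ∃ (_ : IsLocalRing (EntryRing 𝒪 ⧸ I)) (_ : IsLocalHom (algebraMap 𝒪 (EntryRing 𝒪 ⧸ I))),
      QuotGood D 𝒟 I := by
  obtain ⟨A, _, _, _, _, M, hA, hM, hI⟩ := h
  have := hA.isArtinian
  have hfin := IsTest.finite hA
  obtain ⟨n, hn⟩ := exists_maximalIdeal_pow_eq_bot A
  have hle : I ≤ augIdeal D := hI ▸ hM.normal.lift.ker_le
  have hpow : augIdeal D ^ n ≤ I := hI ▸ hM.normal.lift.pow_le_ker hn
  let ι : (EntryRing 𝒪 ⧸ I) →ₐ[𝒪] A :=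
    Ideal.Quotient.liftₐ I (repEval M) (fun a ha => by rwa [hI, RingHom.mem_ker] at ha)
  have hι : Function.Injective ι := by
    intro x y hxy
    obtain ⟨p, rfl⟩ := Ideal.Quotient.mk_surjective x
    obtain ⟨q, rfl⟩ := Ideal.Quotient.mk_surjective y
    rw [Ideal.Quotient.eq, hI, RingHom.mem_ker, map_sub, sub_eq_zero]
    exact hxy
  have : Finite (EntryRing 𝒪 ⧸ I) := Finite.of_injective _ hι
  have := isLocalRing_quotient (MM := augIdeal D) hpow hle
  have hT := isTest_quotient (K := I) hle (augIdeal_approx D)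
    (fun _ hr => algebraMap_mem_augIdeal D hr)
  have := hT.isLocalHom
  obtain ⟨N, hN⟩ := exists_hom_of_injective (fun σ => (tautMat 𝒪 σ).map (Ideal.Quotient.mk I))
    (ι : (EntryRing 𝒪 ⧸ I) →+* A) hι M (fun σ => by
      rw [Matrix.map_map]
      exact repEval_taut M σ)
  have hmap : mapRep (ι : (EntryRing 𝒪 ⧸ I) →+* A) N = M := MonoidHom.ext fun σ => by
    rw [mapRep_apply, hN σ, Matrix.map_map]
    exact repEval_taut M σ
  refine ⟨inferInstance, inferInstance, hT, inferInstance, hle, ⟨n, hpow⟩, N, ?_, hN⟩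
  exact IsGood.of_map h𝒟 hT hA ι hι (hmap ▸ hM)

/-- Admissible ideals can be enlarged. -/
lemma IsAdm.of_le {I J : Ideal (EntryRing 𝒪)} (hI : IsAdm D 𝒟 I) (hIJ : I ≤ J)
    (hJ : J ≤ augIdeal D) : IsAdm D 𝒟 J := by
  obtain ⟨_, _, hg⟩ := hI.quotGood h𝒟
  have := hg.finite
  obtain ⟨n, hn⟩ := hg.exists_pow_le
  have : Finite (EntryRing 𝒪 ⧸ J) :=
    Finite.of_surjective _ (Ideal.Quotient.factor_surjective hIJ)
  have := isLocalRing_quotient (MM := augIdeal D) (hn.trans hIJ) hJ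
  have hT := isTest_quotient (K := J) hJ (augIdeal_approx D)
    (fun _ hr => algebraMap_mem_augIdeal D hr)
  have := hT.isLocalHom
  obtain ⟨M, hM, hMσ⟩ := hg.exists_good
  have hM' := hM.map h𝒟 hg.isTest hT (Ideal.Quotient.factorₐ 𝒪 hIJ)
  refine QuotGood.isAdm ⟨hT, inferInstance, hJ, ⟨n, hn.trans hIJ⟩, _, hM', fun σ => ?_⟩
  rw [mapRep_apply, hMσ σ, Matrix.map_map]
  rfl

/-- Admissible ideals are closed under intersection. -/
lemma IsAdm.inf {I J : Ideal (EntryRing 𝒪)} (hI : IsAdm D 𝒟 I) (hJ : IsAdm D 𝒟 J) :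
    IsAdm D 𝒟 (I ⊓ J) := by
  obtain ⟨_, _, gI⟩ := hI.quotGood h𝒟
  obtain ⟨_, _, gJ⟩ := hJ.quotGood h𝒟
  obtain ⟨_, _, gS⟩ := (hI.of_le h𝒟 le_sup_left (sup_le gI.le gJ.le)).quotGood h𝒟
  have := gI.finite
  have := gJ.finite
  have := gI.isTest.isArtinian
  have := gJ.isTest.isArtinian
  let pA := Ideal.Quotient.factorₐ 𝒪 (inf_le_left : I ⊓ J ≤ I)
  let pB := Ideal.Quotient.factorₐ 𝒪 (inf_le_right : I ⊓ J ≤ J)
  have hinj : Function.Injective (fun x => (pA x, pB x)) := by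
    intro x y hxy
    obtain ⟨p, rfl⟩ := Ideal.Quotient.mk_surjective x
    obtain ⟨q, rfl⟩ := Ideal.Quotient.mk_surjective y
    simp only [Prod.mk.injEq] at hxy
    rw [Ideal.Quotient.eq, Ideal.mem_inf]
    exact ⟨Ideal.Quotient.eq.mp hxy.1, Ideal.Quotient.eq.mp hxy.2⟩
  have : Finite (EntryRing 𝒪 ⧸ (I ⊓ J)) := Finite.of_injective _ hinj
  obtain ⟨m, hm⟩ := gI.exists_pow_le
  obtain ⟨n, hn⟩ := gJ.exists_pow_le
  have hpow : augIdeal D ^ (m + n) ≤ I ⊓ J :=
    le_inf ((Ideal.pow_le_pow_right (Nat.le_add_right m n)).trans hm)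
      ((Ideal.pow_le_pow_right (Nat.le_add_left n m)).trans hn)
  have hle : I ⊓ J ≤ augIdeal D := inf_le_left.trans gI.le
  have := isLocalRing_quotient (MM := augIdeal D) hpow hle
  have hT := isTest_quotient (K := I ⊓ J) hle (augIdeal_approx D)
    (fun _ hr => algebraMap_mem_augIdeal D hr)
  have := hT.isLocalHom
  have := hT.isArtinian
  obtain ⟨MI, hMI, hMIσ⟩ := gI.exists_good
  obtain ⟨MJ, hMJ, hMJσ⟩ := gJ.exists_good
  -- the tautological family is a homomorphism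
  set E : GQ → M2 (EntryRing 𝒪 ⧸ (I ⊓ J)) :=
    fun σ => (tautMat 𝒪 σ).map (Ideal.Quotient.mk (I ⊓ J)) with hE
  have hA : ∀ σ, (E σ).map pA = MI σ := fun σ => by
    rw [hE, hMIσ σ, Matrix.map_map]; rfl
  have hB : ∀ σ, (E σ).map pB = MJ σ := fun σ => by
    rw [hE, hMJσ σ, Matrix.map_map]; rfl
  have hext : ∀ u v : M2 (EntryRing 𝒪 ⧸ (I ⊓ J)), u.map pA = v.map pA → u.map pB = v.map pB →
      u = v := fun u v h1 h2 => Matrix.ext fun i j =>
    hinj (Prod.ext (congrFun (congrFun h1 i) j) (congrFun (congrFun h2 i) j))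
  let M : GQ →* M2 (EntryRing 𝒪 ⧸ (I ⊓ J)) :=
    { toFun := E
      map_one' := hext _ _
        (by rw [hA, map_one, Matrix.map_one _ (map_zero pA) (map_one pA)])
        (by rw [hB, map_one, Matrix.map_one _ (map_zero pB) (map_one pB)])
      map_mul' := fun σ τ => hext _ _
        (by rw [hA, map_mul, Matrix.map_mul, hA, hA])
        (by rw [hB, map_mul, Matrix.map_mul, hB, hB]) }
  have hpA : mapRep (pA : (EntryRing 𝒪 ⧸ (I ⊓ J)) →+* EntryRing 𝒪 ⧸ I) M = MI := MonoidHom.ext hA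
  have hpB : mapRep (pB : (EntryRing 𝒪 ⧸ (I ⊓ J)) →+* EntryRing 𝒪 ⧸ J) M = MJ := MonoidHom.ext hB
  obtain ⟨ρI, hρI, hDI⟩ := hMI.isD
  obtain ⟨ρJ, hρJ, hDJ⟩ := hMJ.isD
  have hlA := isLocalHom_algHom pA
  have hlB := isLocalHom_algHom pB
  -- continuity
  have hc : MatCont M := by
    intro k
    obtain ⟨mI, hmI⟩ := exists_maximalIdeal_pow_eq_bot (EntryRing 𝒪 ⧸ I)
    obtain ⟨mJ, hmJ⟩ := exists_maximalIdeal_pow_eq_bot (EntryRing 𝒪 ⧸ J)
    obtain ⟨L, hL, hL'⟩ := hρI.matCont mI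
    obtain ⟨L₂, hL₂, hL₂'⟩ := hρJ.matCont mJ
    refine ⟨L ⊔ L₂, inferInstance, fun σ hσ => ?_⟩
    have h1 : M σ = 1 := by
      refine hext _ _ ?_ ?_
      · rw [Matrix.map_one _ (map_zero pA) (map_one pA)]
        refine (hA σ).trans (Matrix.ext fun i j => ?_)
        have := hL' σ (fun x hx => hσ x ((le_sup_left : L ≤ L ⊔ L₂) hx)) i j
        rwa [hmI, Submodule.mem_bot, sub_eq_zero] at this
      · rw [Matrix.map_one _ (map_zero pB) (map_one pB)]
        refine (hB σ).trans (Matrix.ext fun i j => ?_)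
        have := hL₂' σ (fun x hx => hσ x ((le_sup_right : L₂ ≤ L ⊔ L₂) hx)) i j
        rwa [hmJ, Submodule.mem_bot, sub_eq_zero] at this
    intro i j
    rw [h1, sub_self]
    exact zero_mem _
  -- normality
  have hev : ∀ x : GQ →₀ 𝒪, (evalComb (M : GQ → M2 _) x).map pA =
      evalComb (MI : GQ → M2 _) x := fun x => by
    rw [← hpA]
    exact evalComb_map (𝒪 := 𝒪) (pA : (EntryRing 𝒪 ⧸ (I ⊓ J)) →+* EntryRing 𝒪 ⧸ I)
      (fun r => pA.commutes r) _ x
  have hev' : ∀ x : GQ →₀ 𝒪, (evalComb (M : GQ → M2 _) x).map pB =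
      evalComb (MJ : GQ → M2 _) x := fun x => by
    rw [← hpB]
    exact evalComb_map (𝒪 := 𝒪) (pB : (EntryRing 𝒪 ⧸ (I ⊓ J)) →+* EntryRing 𝒪 ⧸ J)
      (fun r => pB.commutes r) _ x
  have hnorm : D.IsNormal M := by
    refine ⟨?_, hinj (Prod.ext ?_ ?_), hinj (Prod.ext ?_ ?_), hinj (Prod.ext ?_ ?_)⟩
    · have hl := hMI.normal.lift
      rw [← hpA] at hl
      refine mapRep_injective
        (φ := ResidueField.map (pA : (EntryRing 𝒪 ⧸ (I ⊓ J)) →+* EntryRing 𝒪 ⧸ I))
        (RingHom.injective _) ?_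
      rw [mapRep_comp, ResidueField.map_comp_residue, ← mapRep_comp, hl, mapRep_comp]
      refine congrArg (fun f => mapRep f D.M0)
        (Ideal.Quotient.ringHom_ext (RingHom.ext fun r => ?_))
      show residue _ (algebraMap 𝒪 _ r) = residue _ (pA (algebraMap 𝒪 _ r))
      rw [pA.commutes]
    · have := hMI.normal.a01
      rw [← hev, Matrix.map_apply] at this
      show pA _ = pA 0
      rw [map_zero]; exact this
    · have := hMJ.normal.a01
      rw [← hev', Matrix.map_apply] at this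
      show pB _ = pB 0
      rw [map_zero]; exact this
    · have := hMI.normal.a10
      rw [← hev, Matrix.map_apply] at this
      show pA _ = pA 0
      rw [map_zero]; exact this
    · have := hMJ.normal.a10
      rw [← hev', Matrix.map_apply] at this
      show pB _ = pB 0
      rw [map_zero]; exact this
    · have := hMI.normal.b01
      rw [← hev, Matrix.map_apply] at this
      show pA _ = pA 1
      rw [map_one]; exact this
    · have := hMJ.normal.b01
      rw [← hev', Matrix.map_apply] at this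
      show pB _ = pB 1
      rw [map_one]; exact this
  -- the condition, by the fibre product axiom
  refine QuotGood.isAdm ⟨hT, inferInstance, hle, ⟨_, hpow⟩, M,
    ⟨hnorm, ofMatrix M hc, isMatrixRep_ofMatrix M hc, ?_⟩, fun σ => rfl⟩
  let fA := Ideal.Quotient.factorₐ 𝒪 (le_sup_left : I ≤ I ⊔ J)
  let fB := Ideal.Quotient.factorₐ 𝒪 (le_sup_right : J ≤ I ⊔ J)
  refine h𝒟.of_fibreProduct gI.isTest gJ.isTest gS.isTest hT fA fB pA pB hlA hlB
    (AlgHom.ext fun x => ?_) hinj (fun a b hab => ?_) ?_ ?_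
  · obtain ⟨p, rfl⟩ := Ideal.Quotient.mk_surjective x
    rfl
  · obtain ⟨p, rfl⟩ := Ideal.Quotient.mk_surjective a
    obtain ⟨q, rfl⟩ := Ideal.Quotient.mk_surjective b
    have hpq : p - q ∈ I ⊔ J := Ideal.Quotient.eq.mp hab
    obtain ⟨u, hu, v, hv, huv⟩ := Submodule.mem_sup.mp hpq
    refine ⟨Ideal.Quotient.mk _ (p - u), ?_, ?_⟩
    · show Ideal.Quotient.mk I (p - u) = Ideal.Quotient.mk I p
      rw [Ideal.Quotient.eq]
      simpa using hu
    · show Ideal.Quotient.mk J (p - u) = Ideal.Quotient.mk J q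
      rw [Ideal.Quotient.eq]
      have : p - u - q = v := by linear_combination -huv
      rwa [this]
  · exact h𝒟.of_isEquiv gI.isTest
      (hρI.isEquiv (hpA ▸ (isMatrixRep_ofMatrix M hc).baseChangeAlong _ hlA)) hDI
  · exact h𝒟.of_isEquiv gJ.isTest
      (hρJ.isEquiv (hpB ▸ (isMatrixRep_ofMatrix M hc).baseChangeAlong _ hlB)) hDJ

end Fermat.Agent.Deformation

end
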