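import Fermat.Agent.Deformation.Normalise

/-!
# Burnside's theorem for two-dimensional representations, and existence of rigidifying data

Main results: `burnside_two`, `span_range_eq_top` and `exists_rigidData`.
-/

set_option autoImplicit false

noncomputable section

open IsLocalRing Matrix
open scoped TensorProduct

namespace Fermat.Agent.Deformation

variable {K : Type} [Field K]

/-- A multiplicatively closed subspace of `M₂(K)`, `K` algebraically closed, containing the
identity and without common eigenvector, is everything. -/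
theorem burnside_two [IsAlgClosed K] (W : Submodule K (M2 K)) (h1 : (1 : M2 K) ∈ W)
    (hmul : ∀ x ∈ W, ∀ y ∈ W, x * y ∈ W)
    (hirr : ∀ v : Fin 2 → K, v ≠ 0 → ∃ w ∈ W, ∀ c : K, w *ᵥ v ≠ c • v) : W = ⊤ := by
  -- a rank one element
  obtain ⟨u, f, hu, hf, huf⟩ : ∃ u f : Fin 2 → K, u ≠ 0 ∧ f ≠ 0 ∧ vecMulVec u f ∈ W := by
    obtain ⟨w, hw, hwv⟩ := hirr ![1, 0] (by simp)
    obtain ⟨c, hc⟩ := Module.End.exists_eigenvalue (Matrix.toLin' w)
    obtain ⟨v, hv⟩ := hc.exists_hasEigenvector
    set n : M2 K := w - c • 1 with hn
    have hnW : n ∈ W := sub_mem hw (W.smul_mem _ h1)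
    have hnv : n *ᵥ v = 0 := by
      have h2 : w *ᵥ v = c • v := by simpa using hv.apply_eq_smul
      rw [hn, sub_mulVec, smul_mulVec, one_mulVec, h2, sub_self]
    have hnne : n ≠ 0 := by
      intro h0
      apply hwv c
      rw [sub_eq_zero.mp h0, smul_mulVec, one_mulVec]
    have hdet : n 0 0 * n 1 1 - n 0 1 * n 1 0 = 0 := by
      rw [← Matrix.det_fin_two]
      exact Matrix.exists_mulVec_eq_zero_iff.mp ⟨v, hv.2, hnv⟩
    by_cases hrow : n 0 0 = 0 ∧ n 0 1 = 0
    · refine ⟨![0, 1], n 1, by simp, ?_, ?_⟩
      · intro h0
        apply hnne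
        ext i j
        fin_cases i <;> fin_cases j <;> simp [hrow.1, hrow.2, h0]
      · convert hnW using 1
        ext i j
        fin_cases i <;> fin_cases j <;> simp [vecMulVec, hrow.1, hrow.2]
    · have hr : n 0 ≠ 0 := fun h0 => hrow ⟨by simp [h0], by simp [h0]⟩
      obtain ⟨r, hr1⟩ : ∃ r, n 1 = r • n 0 := by
        by_cases h00 : n 0 0 = 0
        · have h01 : n 0 1 ≠ 0 := fun h => hrow ⟨h00, h⟩
          refine ⟨n 1 1 / n 0 1, funext fun j => ?_⟩
          have : n 1 0 = 0 := by
            rw [h00, zero_mul, zero_sub, neg_eq_zero] at hdet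
            exact (mul_eq_zero.mp hdet).resolve_left h01
          fin_cases j <;> simp [this, h00, h01]
        · refine ⟨n 1 0 / n 0 0, funext fun j => ?_⟩
          fin_cases j
          · simp [h00]
          · simp only [Fin.mk_one, Fin.isValue, Pi.smul_apply, smul_eq_mul]
            field_simp
            linear_combination hdet
      refine ⟨![1, r], n 0, by simp, hr, ?_⟩
      convert hnW using 1
      ext i j
      fin_cases i <;> fin_cases j <;> simp [vecMulVec, hr1]
  -- a stable subspace containing a non-zero vector is everything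
  have key : ∀ (S : Submodule K (Fin 2 → K)) (x : Fin 2 → K), x ∈ S → x ≠ 0 →
      (∀ w ∈ W, ∀ y ∈ S, w *ᵥ y ∈ S) → S = ⊤ := by
    intro S x hx hx0 hS
    obtain ⟨w, hw, hwx⟩ := hirr x hx0
    have hli : LinearIndependent K ![x, w *ᵥ x] := by
      rw [LinearIndependent.pair_iff' hx0]
      exact fun c => (hwx c).symm
    apply top_unique
    have hspan : Submodule.span K (Set.range ![x, w *ᵥ x]) = ⊤ :=
      hli.span_eq_top_of_card_eq_finrank (by simp)
    rw [← hspan, Submodule.span_le]
    rintro z ⟨i, rfl⟩
    fin_cases i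
    · exact hx
    · exact hS w hw x hx
  let S : Submodule K (Fin 2 → K) :=
    { carrier := {x | vecMulVec x f ∈ W}
      add_mem' := fun {x y} hx hy => by
        show vecMulVec (x + y) f ∈ W
        rw [add_vecMulVec]
        exact add_mem hx hy
      zero_mem' := by
        show vecMulVec (0 : Fin 2 → K) f ∈ W
        rw [zero_vecMulVec]
        exact zero_mem W
      smul_mem' := fun c x hx => by
        show vecMulVec (c • x) f ∈ W
        rw [smul_vecMulVec]
        exact W.smul_mem c hx }
  have hS : S = ⊤ := key S u huf hu (fun w hw y hy => by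
    show vecMulVec (w *ᵥ y) f ∈ W
    rw [← mul_vecMulVec]
    exact hmul w hw _ hy)
  -- the space of all `g` with `x ⊗ g ∈ W` for all `x`
  let T : Submodule K (Fin 2 → K) :=
    { carrier := {g | ∀ x, vecMulVec x g ∈ W}
      add_mem' := fun {g g'} hg hg' x => by
        rw [vecMulVec_add]
        exact add_mem (hg x) (hg' x)
      zero_mem' := fun x => by
        rw [vecMulVec_zero]
        exact zero_mem W
      smul_mem' := fun c g hg x => by
        rw [vecMulVec_smul]
        exact W.smul_mem c (hg x) }
  have hfT : f ∈ T := fun x => by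
    have : x ∈ S := by rw [hS]; trivial
    exact this
  have hT : T = ⊤ := by
    -- otherwise the orthogonal of `f` is a stable line
    let v : Fin 2 → K := ![-(f 1), f 0]
    have hv : v ≠ 0 := by
      intro h0
      apply hf
      funext i
      have e0 := congrFun h0 0
      have e1 := congrFun h0 1
      fin_cases i
      · simpa [v] using e1
      · simpa [v] using e0
    obtain ⟨w, hw, hwv⟩ := hirr v hv
    have hgT : f ᵥ* w ∈ T := fun x => by
      rw [← vecMulVec_mul]
      exact hmul _ (hfT x) _ hw
    have hli : LinearIndependent K ![f, f ᵥ* w] := by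
      rw [LinearIndependent.pair_iff' hf]
      intro c hc
      have hperp : f ⬝ᵥ (w *ᵥ v) = 0 := by
        rw [dotProduct_mulVec, ← hc]
        simp [v, dotProduct, Fin.sum_univ_two]
        ring
      simp only [dotProduct, Fin.sum_univ_two] at hperp
      by_cases hf0 : f 0 = 0
      · have hf1 : f 1 ≠ 0 := by
          intro h
          apply hf
          funext i
          fin_cases i <;> simp [hf0, h]
        have : (w *ᵥ v) 1 = 0 := by
          rw [hf0, zero_mul, zero_add] at hperp
          exact (mul_eq_zero.mp hperp).resolve_left hf1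
        refine hwv (-((w *ᵥ v) 0) / f 1) (funext fun i => ?_)
        fin_cases i
        · simp [v]
          field_simp
          ring
        · simp only [Fin.mk_one, Fin.isValue, this]
          simp [v, hf0]
      · refine hwv ((w *ᵥ v) 1 / f 0) (funext fun i => ?_)
        fin_cases i
        · simp [v] at hperp ⊢
          field_simp
          linear_combination hperp
        · simp [v]
          field_simp
    apply top_unique
    have hspan : Submodule.span K (Set.range ![f, f ᵥ* w]) = ⊤ :=
      hli.span_eq_top_of_card_eq_finrank (by simp)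
    rw [← hspan, Submodule.span_le]
    rintro z ⟨i, rfl⟩
    fin_cases i
    · exact hfT
    · exact hgT
  apply top_unique
  intro x _
  rw [Matrix.matrix_eq_sum_single x]
  refine Submodule.sum_mem _ fun i _ => Submodule.sum_mem _ fun j _ => ?_
  have : (Pi.single j (x i j) : Fin 2 → K) ∈ T := by rw [hT]; trivial
  have h2 := this (Pi.single i 1)
  convert h2 using 1
  ext a b
  simp [Matrix.single_apply, vecMulVec_apply, Pi.single_apply]
  grind

variable {k : Type} [Field k]

/-- The matrices of an absolutely irreducible representation span `M₂`. -/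
theorem span_range_eq_top {ρbar : ResidualGaloisRep k} {M : GQ →* M2 k}
    (hM : IsResMatrixRep ρbar M) (habs : ρbar.IsAbsolutelyIrreducible) :
    Submodule.span k (Set.range M) = ⊤ := by
  let K := AlgebraicClosure k
  obtain ⟨b, hb⟩ := hM.baseChange (k' := K)
  let MK : GQ →* M2 K := mapRep (algebraMap k K) M
  set W : Submodule K (M2 K) := Submodule.span K (Set.range MK) with hW
  have hWtop : W = ⊤ := by
    refine burnside_two W (Submodule.subset_span ⟨1, map_one MK⟩) ?_ ?_
    · intro x hx y hy
      have hxy : x * y ∈ W * W := Submodule.mul_mem_mul hx hy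
      have hle : W * W ≤ W := by
        rw [hW, Submodule.span_mul_span, Submodule.span_le]
        rintro _ ⟨_, ⟨s, rfl⟩, _, ⟨t, rfl⟩, rfl⟩
        exact Submodule.subset_span ⟨s * t, map_mul MK s t⟩
      exact hle hxy
    · intro v hv
      by_contra hno
      have hno' : ∀ w ∈ W, ∃ c : K, w *ᵥ v = c • v := by
        intro w hw
        by_contra h
        exact hno ⟨w, hw, fun c hc => h ⟨c, hc⟩⟩
      let x : (ρbar.baseChange K).V := b.equivFun.symm v
      have hstab : ∀ σ, (ρbar.baseChange K).ρ σ x ∈ Submodule.span K {x} := by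
        intro σ
        obtain ⟨c, hc⟩ := hno' (MK σ) (Submodule.subset_span ⟨σ, rfl⟩)
        refine Submodule.mem_span_singleton.mpr ⟨c, ?_⟩
        apply b.equivFun.injective
        rw [map_smul]
        have h1 := LinearMap.toMatrix_mulVec_repr b b ((ρbar.baseChange K).ρ σ) x
        rw [hb σ] at h1
        have h2 : b.equivFun x = v := b.equivFun.apply_symm_apply v
        rw [h2]
        rw [← hc]
        have h3 : (b.repr x : Fin 2 → K) = v := h2
        rw [h3] at h1
        exact h1
      rcases habs (Submodule.span K {x}) (fun σ y hy => by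
        obtain ⟨d, rfl⟩ := Submodule.mem_span_singleton.mp hy
        rw [map_smul]
        exact Submodule.smul_mem _ d (hstab σ)) with h | h
      · rw [Submodule.span_singleton_eq_bot] at h
        exact hv ((LinearEquiv.map_eq_zero_iff b.equivFun.symm).mp h)
      · have h4 : Module.finrank K (Submodule.span K {x}) = 1 := finrank_span_singleton (by
          intro h0
          exact hv ((LinearEquiv.map_eq_zero_iff b.equivFun.symm).mp h0))
        rw [h, finrank_top, (ρbar.baseChange K).finrank_eq] at h4
        omega
  -- descend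
  by_contra hne
  obtain ⟨φ, hφ, hφ'⟩ := Submodule.exists_le_ker_of_lt_top _ (lt_top_iff_ne_top.mpr hne)
  let Φ : M2 K →ₗ[K] K :=
    ∑ i : Fin 2, ∑ j : Fin 2, algebraMap k K (φ (Matrix.single i j 1)) •
      (Matrix.entryLinearMap K K i j)
  have hΦ : ∀ N : M2 k, Φ (N.map (algebraMap k K)) = algebraMap k K (φ N) := by
    intro N
    conv_rhs => rw [Matrix.matrix_eq_sum_single N]
    simp only [Φ, LinearMap.coe_sum, Finset.sum_apply, LinearMap.smul_apply,
      Matrix.entryLinearMap_apply, Matrix.map_apply, smul_eq_mul, map_sum]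
    refine Finset.sum_congr rfl fun i _ => Finset.sum_congr rfl fun j _ => ?_
    have : Matrix.single i j (N i j) = N i j • Matrix.single i j (1 : k) := by simp
    rw [this, map_smul, smul_eq_mul, map_mul, mul_comm]
  have hΦ0 : Φ = 0 := by
    refine LinearMap.ext fun N => ?_
    have hN : N ∈ W := by rw [hWtop]; trivial
    rw [hW] at hN
    refine Submodule.span_induction ?_ (map_zero _) (fun x y _ _ hx hy => ?_)
      (fun c x _ hx => ?_) hN
    · rintro _ ⟨σ, rfl⟩
      show Φ ((M σ).map (algebraMap k K)) = 0
      rw [hΦ, show φ (M σ) = 0 from hφ' (Submodule.subset_span ⟨σ, rfl⟩), map_zero]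
    · simp [map_add, hx, hy]
    · simp [map_smul, hx]
  apply hφ
  refine LinearMap.ext fun N => ?_
  have := hΦ N
  rw [hΦ0] at this
  simpa using this.symm

variable {𝒪 : Type} [CommRing 𝒪] [IsLocalRing 𝒪]

/-- Rigidifying data exist for absolutely irreducible residual representations. -/
theorem exists_rigidData {ρbar : ResidualGaloisRep (ResidueField 𝒪)}
    (habs : ρbar.IsAbsolutelyIrreducible) :
    ∃ D : RigidData 𝒪, IsResMatrixRep ρbar D.M0 := by
  obtain ⟨M, hM⟩ := exists_isResMatrixRep ρbar
  have htop := span_range_eq_top hM habs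
  have key : ∀ N : M2 (ResidueField 𝒪), ∃ a : GQ →₀ 𝒪,
      evalComb (M : GQ → M2 (ResidueField 𝒪)) a = N := by
    intro N
    have hN : N ∈ Submodule.span (ResidueField 𝒪) (Set.range M) := by rw [htop]; trivial
    rw [Finsupp.mem_span_range_iff_exists_finsupp] at hN
    obtain ⟨c, rfl⟩ := hN
    choose s hs using fun x : ResidueField 𝒪 => residue_surjective x
    classical
    refine ⟨Finsupp.onFinset c.support (fun g => if g ∈ c.support then s (c g) else 0)
      (fun g hg => by
      by_contra h
      simp [h] at hg), ?_⟩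
    rw [evalComb, Finsupp.onFinset_sum _ (fun g => zero_smul 𝒪 (M g)), Finsupp.sum]
    refine Finset.sum_congr rfl fun g hg => ?_
    rw [if_pos hg]
    conv_rhs => rw [← hs (c g), ← ResidueField.algebraMap_eq, algebraMap_smul]
  obtain ⟨a, ha⟩ := key !![1, 0; 0, 0]
  obtain ⟨b, hb⟩ := key !![0, 1; 0, 0]
  exact ⟨⟨M, a, b, ha, hb⟩, hM⟩

end Fermat.Agent.Deformation

end
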