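import Mathlib
import Fermat.Prelude.Thm_IsAdicComplete_of_module_finite

/-!
# Complete Noetherian limits of compatible quotients

Given a ring `P`, a maximal ideal `MM` and ideals `I n ⊇ MM ^ n` with `I n = I (n+1) ⊔ MM ^ n`,
such that `MM` is finitely generated modulo `I 2`, the limit of the `P ⧸ I n` is realised by a
complete Noetherian local ring `R`, the kernel of `R → P ⧸ I n` being `m ^ n`
(`nonempty_limitRing`).
-/

set_option autoImplicit false

noncomputable section

open IsLocalRing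

namespace Fermat.Agent.Deformation

variable (𝒪 : Type) [CommRing 𝒪] [IsLocalRing 𝒪] [IsNoetherianRing 𝒪]
  {P : Type} [CommRing P] [Algebra 𝒪 P]

/-- The limit package. -/
structure LimitRing (I : ℕ → Ideal P) : Type 1 where
  R : Type
  [commRing : CommRing R]
  [localRing : IsLocalRing R]
  [noetherian : IsNoetherianRing R]
  [complete : IsAdicComplete (maximalIdeal R) R]
  [algebra : Algebra 𝒪 R]
  [localHom : IsLocalHom (algebraMap 𝒪 R)]
  residue_surjective : Function.Surjective (residue R ∘ algebraMap 𝒪 R)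
  π : ∀ n, R →ₐ[𝒪] P ⧸ I n
  π_surjective : ∀ n, Function.Surjective (π n)
  ker_π : ∀ n, RingHom.ker (π n) = maximalIdeal R ^ n
  π_compat : ∀ (n : ℕ) (h : I (n + 1) ≤ I n) (r : R), Ideal.Quotient.factor h (π (n + 1) r) = π n r
  exists_lift : ∀ y : ∀ n, P ⧸ I n,
    (∀ (n : ℕ) (h : I (n + 1) ≤ I n), Ideal.Quotient.factor h (y (n + 1)) = y n) →
      ∃ r : R, ∀ n, π n r = y n

attribute [instance] LimitRing.commRing LimitRing.localRing LimitRing.noetherian
  LimitRing.complete LimitRing.algebra LimitRing.localHom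

/-- Existence of the limit package. -/
theorem nonempty_limitRing (MM : Ideal P) [hMM : MM.IsMaximal]
    (hres : ∀ p : P, ∃ r : 𝒪, p - algebraMap 𝒪 P r ∈ MM)
    (hloc : ∀ r ∈ maximalIdeal 𝒪, algebraMap 𝒪 P r ∈ MM)
    (I : ℕ → Ideal P) (hpow : ∀ n, MM ^ n ≤ I n) (hstep : ∀ n, I n = I (n + 1) ⊔ MM ^ n)
    (hone : I 1 = MM)
    (hfg : ∃ s : Finset P, (∀ x ∈ s, x ∈ MM) ∧ MM ≤ Ideal.span (s : Set P) ⊔ I 2) :
    Nonempty (LimitRing 𝒪 I) := by
  classical
  obtain ⟨s, hsMM, hs⟩ := hfg
  let N := s.card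
  let x : Fin N → P := fun i => (s.equivFin.symm i : P)
  have hxMM : ∀ i, x i ∈ MM := fun i => hsMM _ (s.equivFin.symm i).2
  have hrange : Set.range x = (s : Set P) := by
    ext p
    constructor
    · rintro ⟨i, rfl⟩
      exact (s.equivFin.symm i).2
    · intro hp
      exact ⟨s.equivFin ⟨p, hp⟩, by simp [x]⟩
  have hanti : ∀ n, I (n + 1) ≤ I n := fun n => by rw [hstep n]; exact le_sup_left
  have hI2 : ∀ j, I 2 ≤ I (2 + j) ⊔ MM ^ 2 := by
    intro j
    induction j with
    | zero => exact le_sup_left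
    | succ j ih =>
      refine ih.trans (sup_le ?_ le_sup_right)
      rw [hstep (2 + j), ← add_assoc]
      exact sup_le_sup_left (Ideal.pow_le_pow_right (by omega)) _
  -- `MM` is generated by the `x i` modulo every `I n`
  have hgen : ∀ n, MM ≤ Ideal.span (Set.range x) ⊔ I n := by
    intro n
    by_cases hn : n ≤ 1
    · refine le_trans ?_ le_sup_right
      rcases Nat.le_one_iff_eq_zero_or_eq_one.mp hn with rfl | rfl
      · exact le_trans le_top (by simpa using hpow 0)
      · rw [hone]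
    · obtain ⟨j, rfl⟩ : ∃ j, n = 2 + j := ⟨n - 2, by omega⟩
      have h1 : MM ≤ Ideal.span (Set.range x) ⊔ I (2 + j) ⊔ MM ^ 2 := by
        rw [hrange]
        refine hs.trans (sup_le (le_sup_of_le_left le_sup_left) ?_)
        exact (hI2 j).trans (sup_le (le_sup_of_le_left le_sup_right) le_sup_right)
      have h2 : ∀ i, MM ≤ Ideal.span (Set.range x) ⊔ I (2 + j) ⊔ MM ^ (i + 1) := by
        intro i
        induction i with
        | zero => simp
        | succ i ih =>
          refine h1.trans (sup_le le_sup_left ?_)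
          rw [pow_two]
          refine (Ideal.mul_mono_right ih).trans ?_
          rw [Ideal.mul_sup, pow_succ' MM (i + 1)]
          exact sup_le_sup_right Ideal.mul_le_right _
      refine (h2 (1 + j)).trans (sup_le le_rfl ?_)
      rw [show 1 + j + 1 = 2 + j by omega]
      exact (hpow _).trans le_sup_right
  -- the maps from power series
  let S := MvPowerSeries (Fin N) 𝒪
  let ev : MvPolynomial (Fin N) 𝒪 →ₐ[𝒪] P := MvPolynomial.aeval x
  have hvars : (MvPolynomial.idealOfVars (Fin N) 𝒪).map ev ≤ MM := by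
    rw [Ideal.map_le_iff_le_comap, MvPolynomial.idealOfVars, Ideal.span_le]
    rintro _ ⟨i, rfl⟩
    simpa [ev] using hxMM i
  have hvn : ∀ n, ∀ a ∈ MvPolynomial.idealOfVars (Fin N) 𝒪 ^ n, ev a ∈ I n := by
    intro n a ha
    refine hpow n (?_ : ev a ∈ MM ^ n)
    have h1 : (MvPolynomial.idealOfVars (Fin N) 𝒪 ^ n).map ev ≤ MM ^ n := by
      rw [Ideal.map_pow]
      exact Ideal.pow_right_mono hvars n
    exact h1 (Ideal.mem_map_of_mem ev ha)
  let φ : ∀ n, S →ₐ[𝒪] P ⧸ I n := fun n =>
    (Ideal.Quotient.liftₐ (MvPolynomial.idealOfVars (Fin N) 𝒪 ^ n)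
      ((Ideal.Quotient.mkₐ 𝒪 (I n)).comp ev)
      (fun a ha => Ideal.Quotient.eq_zero_iff_mem.mpr (hvn n a ha))).comp
      ((MvPowerSeries.truncTotalAlgHom (Fin N) 𝒪 n).restrictScalars 𝒪)
  have hφ : ∀ n f, φ n f = Ideal.Quotient.mk (I n) (ev (MvPowerSeries.truncTotal n f)) :=
    fun n f => rfl
  have hφpoly : ∀ n (p : MvPolynomial (Fin N) 𝒪),
      φ n (p : S) = Ideal.Quotient.mk (I n) (ev p) := by
    intro n p
    rw [hφ, Ideal.Quotient.eq, ← map_sub]
    refine hvn n _ ?_
    rw [MvPolynomial.mem_pow_idealOfVars_iff']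
    intro d hd
    rw [MvPolynomial.coeff_sub, MvPowerSeries.coeff_truncTotal _ hd, MvPolynomial.coeff_coe,
      sub_self]
  have hφcompat : ∀ n (h : I (n + 1) ≤ I n) f,
      Ideal.Quotient.factor h (φ (n + 1) f) = φ n f := by
    intro n h f
    rw [hφ, hφ, Ideal.Quotient.factor_mk, Ideal.Quotient.eq, ← map_sub]
    exact hvn n _
      (MvPowerSeries.truncTotal_sub_truncTotal_mem_pow_idealOfVars (Nat.le_succ n) le_rfl f)
  have hφsurj : ∀ n, Function.Surjective (φ n) := by
    intro n
    have h1 : ∀ j, ∀ p : P, ∃ q, p - ev q ∈ MM ^ j ⊔ I n := by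
      intro j
      induction j with
      | zero => exact fun p => ⟨0, by simp⟩
      | succ j ih =>
        intro p
        obtain ⟨r, hr⟩ := hres p
        obtain ⟨u, hu, v, hv, huv⟩ := Submodule.mem_sup.mp (hgen n hr)
        obtain ⟨c, hc⟩ := Ideal.mem_span_range_iff_exists_fun.mp hu
        choose q hq using fun i => ih (c i)
        refine ⟨algebraMap 𝒪 _ r + ∑ i, q i * MvPolynomial.X i, ?_⟩
        have h2 : p - ev (algebraMap 𝒪 _ r + ∑ i, q i * MvPolynomial.X i) =
            v + ∑ i, (c i - ev (q i)) * x i := by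
          simp only [map_add, AlgHom.commutes, map_sum, map_mul, ev, MvPolynomial.aeval_X,
            sub_mul, Finset.sum_sub_distrib]
          linear_combination -hc - huv
        rw [h2]
        refine add_mem (Submodule.mem_sup_right hv) (Ideal.sum_mem _ fun i _ => ?_)
        have h3 : (c i - ev (q i)) * x i ∈ (MM ^ j ⊔ I n) * MM := Ideal.mul_mem_mul (hq i) (hxMM i)
        rw [Ideal.sup_mul, ← pow_succ] at h3
        exact (sup_le_sup_left (Ideal.mul_le_left (I := I n) (J := MM)) _) h3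
    intro y
    obtain ⟨p, rfl⟩ := Ideal.Quotient.mk_surjective y
    obtain ⟨q, hq⟩ := h1 n p
    refine ⟨(q : S), ?_⟩
    rw [hφpoly, eq_comm, Ideal.Quotient.eq]
    exact (sup_le (hpow n) le_rfl) hq
  let XS : Ideal S := Ideal.span (Set.range MvPowerSeries.X)
  have hmapX : ∀ n, XS.map (φ n) = MM.map (Ideal.Quotient.mk (I n)) := by
    intro n
    have h1 : XS.map (φ n) = (Ideal.span (Set.range x)).map (Ideal.Quotient.mk (I n)) := by
      simp only [XS, Ideal.map_span, ← Set.range_comp]
      congr 2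
      funext i
      simp only [Function.comp_apply]
      rw [← MvPolynomial.coe_X, hφpoly]
      simp [ev]
    rw [h1]
    refine le_antisymm (Ideal.map_mono (Ideal.span_le.mpr ?_)) ?_
    · rintro _ ⟨i, rfl⟩
      exact hxMM i
    · refine (Ideal.map_mono (hgen n)).trans ?_
      rw [Ideal.map_sup, Ideal.map_quotient_self, sup_bot_eq]
  have hkill : ∀ n, ∀ t ∈ XS ^ n, φ n t = 0 := by
    intro n t ht
    have h1 : φ n t ∈ (XS ^ n).map (φ n) := Ideal.mem_map_of_mem _ ht
    rw [Ideal.map_pow, hmapX, ← Ideal.map_pow, Ideal.map_mk_eq_bot_of_le (hpow n)] at h1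
    exact h1
  -- lifting compatible systems
  have hlift : ∀ (n0 : ℕ) (y : ∀ n, P ⧸ I n),
      (∀ (n : ℕ) (h : I (n + 1) ≤ I n), Ideal.Quotient.factor h (y (n + 1)) = y n) →
      (∀ k, k ≤ n0 → y k = 0) → ∃ t ∈ XS ^ n0, ∀ k, φ k t = y k := by
    intro n0 y hy hy0
    have step : ∀ (k : ℕ) (t : S), t ∈ XS ^ n0 → φ k t = y k →
        ∃ t', t' ∈ XS ^ n0 ∧ φ (k + 1) t' = y (k + 1) ∧ t' - t ∈ XS ^ k := by
      intro k t ht htk
      by_cases hk : k + 1 ≤ n0
      · refine ⟨0, zero_mem _, by rw [map_zero, hy0 _ hk], ?_⟩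
        rw [zero_sub, neg_mem_iff]
        exact Ideal.pow_le_pow_right (by omega) ht
      · have hker : φ (k + 1) t - y (k + 1) ∈ RingHom.ker (Ideal.Quotient.factor (hanti k)) := by
          rw [RingHom.mem_ker, map_sub, hφcompat, hy, htk, sub_self]
        rw [Ideal.Quotient.factor_ker, hstep k, Ideal.map_sup, Ideal.map_quotient_self,
          bot_sup_eq, Ideal.map_pow, ← hmapX, ← Ideal.map_pow] at hker
        obtain ⟨d, hd, hdd⟩ :=
          (Ideal.mem_map_iff_of_surjective (φ (k + 1)) (hφsurj (k + 1))).mp hker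
        refine ⟨t - d, sub_mem ht (Ideal.pow_le_pow_right (by omega) hd), ?_, ?_⟩
        · rw [map_sub, hdd, sub_sub_cancel]
        · rw [sub_sub_cancel_left]
          exact neg_mem hd
    have base : (0 : S) ∈ XS ^ n0 ∧ φ 0 0 = y 0 :=
      ⟨zero_mem _, by rw [map_zero, hy0 0 (Nat.zero_le _)]⟩
    choose! g hg1 hg2 hg3 using step
    let u : ℕ → S := fun n => Nat.rec 0 (fun k t => g k t) n
    have hu : ∀ k, u k ∈ XS ^ n0 ∧ φ k (u k) = y k := by
      intro k
      induction k with
      | zero => exact base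
      | succ k ih => exact ⟨hg1 k _ ih.1 ih.2, hg2 k _ ih.1 ih.2⟩
    have hdiff : ∀ m j, u (m + j) - u m ∈ XS ^ m := by
      intro m j
      induction j with
      | zero => simp
      | succ j ih =>
        rw [← sub_add_sub_cancel (u (m + (j + 1))) (u (m + j)) (u m)]
        exact add_mem (Ideal.pow_le_pow_right (Nat.le_add_right m j)
          (hg3 (m + j) _ (hu _).1 (hu _).2)) ih
    obtain ⟨L, hL⟩ := IsPrecomplete.prec' (I := XS) (M := S) u (fun {m n} h => by
      obtain ⟨j, rfl⟩ := Nat.exists_eq_add_of_le h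
      rw [SModEq.sub_mem, smul_eq_mul, Ideal.mul_top]
      rw [← neg_sub, neg_mem_iff]
      exact hdiff m j)
    have hL' : ∀ n, u n - L ∈ XS ^ n := fun n => by
      have := hL n
      rwa [SModEq.sub_mem, smul_eq_mul, Ideal.mul_top] at this
    refine ⟨L, ?_, fun k => ?_⟩
    · have : L = u n0 - (u n0 - L) := by ring
      rw [this]
      exact sub_mem (hu n0).1 (hL' n0)
    · have h1 := hkill k _ (hL' k)
      rw [map_sub, (hu k).2, sub_eq_zero] at h1
      exact h1.symm
  -- the quotient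
  let J : Ideal S := ⨅ n, RingHom.ker (φ n)
  let π : ∀ n, (S ⧸ J) →ₐ[𝒪] P ⧸ I n := fun n =>
    Ideal.Quotient.liftₐ J (φ n) (fun a ha => (Submodule.mem_iInf _).mp ha n)
  have hπ : ∀ n t, π n (Ideal.Quotient.mk J t) = φ n t := fun n t => rfl
  let XR : Ideal (S ⧸ J) := XS.map (algebraMap S (S ⧸ J))
  have hkerπ : ∀ n, RingHom.ker (π n) = XR ^ n := by
    intro n
    refine le_antisymm ?_ ?_
    · intro r hr
      obtain ⟨t, rfl⟩ := Ideal.Quotient.mk_surjective r
      rw [RingHom.mem_ker, hπ] at hr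
      obtain ⟨d, hd, hdt⟩ := hlift n (fun k => φ k t) (fun k h => hφcompat k h t) (by
        intro k hk
        have hle : ∀ j, ∀ h : I (k + j) ≤ I k, Ideal.Quotient.factor h (φ (k + j) t) = φ k t := by
          intro j
          induction j with
          | zero =>
            intro h
            rw [hφ, hφ, Ideal.Quotient.factor_mk]
            rfl
          | succ j ih =>
            intro h
            have hkj : I (k + j) ≤ I k := (antitone_nat_of_succ_le hanti) (Nat.le_add_right k j)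
            rw [← ih hkj, ← hφcompat (k + j) (hanti _) t]
            exact (Ideal.Quotient.factor_comp_apply _ _ _).symm
        obtain ⟨j, rfl⟩ := Nat.exists_eq_add_of_le hk
        show φ k t = 0
        rw [← hle j ((antitone_nat_of_succ_le hanti) (Nat.le_add_right k j)), hr, map_zero])
      have hmk : Ideal.Quotient.mk J t = Ideal.Quotient.mk J d := by
        rw [Ideal.Quotient.eq, Submodule.mem_iInf]
        intro k
        rw [RingHom.mem_ker, map_sub, hdt, sub_self]
      rw [hmk, ← Ideal.map_pow]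
      exact Ideal.mem_map_of_mem _ hd
    · rw [← Ideal.map_pow, Ideal.map_le_iff_le_comap]
      intro t ht
      rw [Ideal.mem_comap, RingHom.mem_ker]
      exact hkill n t ht
  have hπsurj : ∀ n, Function.Surjective (π n) := fun n y =>
    let ⟨t, ht⟩ := hφsurj n y
    ⟨Ideal.Quotient.mk J t, ht⟩
  have : (I 1).IsMaximal := hone ▸ hMM
  have hXR : XR.IsMaximal := by
    have h1 : RingHom.ker (π 1) = XR := (hkerπ 1).trans (Submodule.pow_one _)
    rw [← h1]
    let := Ideal.Quotient.field (I 1)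
    exact RingHom.ker_isMaximal_of_surjective _ (hπsurj 1)
  have : IsAdicComplete XS (S ⧸ J) := IsAdicComplete.of_module_finite XS (S ⧸ J)
  have hcomp : IsAdicComplete XR (S ⧸ J) :=
    (IsAdicComplete.map_algebraMap_iff XS (S ⧸ J)).mpr inferInstance
  have : IsLocalRing (S ⧸ J) := isLocalRing_of_isAdicComplete_maximal XR
  have hm : XR = maximalIdeal (S ⧸ J) := IsLocalRing.eq_maximalIdeal hXR
  have : IsAdicComplete (maximalIdeal (S ⧸ J)) (S ⧸ J) := hm ▸ hcomp
  have hker1 : RingHom.ker (π 1) = maximalIdeal (S ⧸ J) :=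
    ((hkerπ 1).trans (Submodule.pow_one _)).trans hm
  have : IsLocalHom (algebraMap 𝒪 (S ⧸ J)) := by
    refine ⟨fun r hr => ?_⟩
    by_contra hnu
    have hmem : algebraMap 𝒪 (S ⧸ J) r ∈ RingHom.ker (π 1) := by
      rw [RingHom.mem_ker, AlgHom.commutes, ← Ideal.Quotient.mk_algebraMap,
        Ideal.Quotient.eq_zero_iff_mem, hone]
      exact hloc r ((IsLocalRing.mem_maximalIdeal r).mpr hnu)
    rw [hker1] at hmem
    exact (IsLocalRing.mem_maximalIdeal _).mp hmem hr
  refine ⟨{ R := S ⧸ J, π := π, π_surjective := hπsurj, ker_π := fun n => ?_,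
            residue_surjective := ?_, π_compat := ?_, exists_lift := ?_ }⟩
  · intro z
    obtain ⟨w, rfl⟩ := IsLocalRing.residue_surjective z
    obtain ⟨p, hp⟩ := Ideal.Quotient.mk_surjective (π 1 w)
    obtain ⟨r, hr⟩ := hres p
    refine ⟨r, ?_⟩
    show IsLocalRing.residue (S ⧸ J) (algebraMap 𝒪 (S ⧸ J) r) = IsLocalRing.residue (S ⧸ J) w
    refine Ideal.Quotient.eq.mpr ?_
    rw [← hker1, RingHom.mem_ker, map_sub,
      AlgHom.commutes, ← hp, ← Ideal.Quotient.mk_algebraMap, ← map_sub,
      Ideal.Quotient.eq_zero_iff_mem, hone, ← neg_mem_iff, neg_sub]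
    exact hr
  · rw [hkerπ, hm]
  · intro n h r
    obtain ⟨t, rfl⟩ := Ideal.Quotient.mk_surjective r
    exact hφcompat n h t
  · intro y hy
    have : Subsingleton (P ⧸ I 0) :=
      Ideal.Quotient.subsingleton_iff.mpr (top_le_iff.mp (by simpa using hpow 0))
    obtain ⟨t, -, ht⟩ := hlift 0 y hy (fun k hk => by
      obtain rfl := Nat.le_zero.mp hk
      exact Subsingleton.elim _ _)
    exact ⟨Ideal.Quotient.mk J t, ht⟩

end Fermat.Agent.Deformation

end
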