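import Mathlib
import Fermat.Prelude.Def_GaloisRep_Adic

/-!
# Matrix models of adic and residual Galois representations

`IsMatrixRep ρ M` says that the matrices `M σ` are those of `ρ` in some basis, `IsResMatrixRep`
is the residual analogue.  Main results: `isEquiv_iff_areConj` and `isResEquiv_iff_areConj`.
-/

set_option autoImplicit false

noncomputable section

open scoped TensorProduct Matrix

namespace Fermat.Agent.Deformation

/-- The absolute Galois group of `ℚ`. -/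
abbrev GQ : Type := AlgebraicClosure ℚ ≃ₐ[ℚ] AlgebraicClosure ℚ

/-- Two by two matrices. -/
abbrev M2 (A : Type) : Type := Matrix (Fin 2) (Fin 2) A

variable {A B : Type} [CommRing A] [CommRing B]

/-- The pushforward of a matrix representation along a ring homomorphism. -/
def mapRep (φ : A →+* B) (M : GQ →* M2 A) : GQ →* M2 B :=
  (φ.mapMatrix : M2 A →+* M2 B).toMonoidHom.comp M

@[simp] lemma mapRep_apply (φ : A →+* B) (M : GQ →* M2 A) (σ : GQ) :
    mapRep φ M σ = (M σ).map φ := rfl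

lemma mapRep_comp {C : Type} [CommRing C] (ψ : B →+* C) (φ : A →+* B) (M : GQ →* M2 A) :
    mapRep ψ (mapRep φ M) = mapRep (ψ.comp φ) M :=
  MonoidHom.ext fun _ => Matrix.ext fun _ _ => rfl

lemma mapRep_injective {φ : A →+* B} (hφ : Function.Injective φ) :
    Function.Injective (mapRep φ : (GQ →* M2 A) → (GQ →* M2 B)) := fun _ _ h =>
  MonoidHom.ext fun σ => Matrix.ext fun i j =>
    hφ (congrFun (congrFun (DFunLike.congr_fun h σ) i) j)

/-- Conjugation of a matrix representation by an invertible matrix: `σ ↦ U M(σ) U⁻¹`. -/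
def conjRep (U : (M2 A)ˣ) (M : GQ →* M2 A) : GQ →* M2 A where
  toFun σ := U * M σ * (↑U⁻¹ : M2 A)
  map_one' := by simp
  map_mul' σ τ := by simp [map_mul, mul_assoc]

@[simp] lemma conjRep_apply (U : (M2 A)ˣ) (M : GQ →* M2 A) (σ : GQ) :
    conjRep U M σ = U * M σ * (↑U⁻¹ : M2 A) := rfl

/-- `M` and `N` are conjugate. -/
def AreConj (M N : GQ →* M2 A) : Prop := ∃ U : (M2 A)ˣ, ∀ σ, (U : M2 A) * M σ = N σ * U

lemma AreConj.refl (M : GQ →* M2 A) : AreConj M M := ⟨1, fun σ => by simp⟩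

lemma AreConj.conjRep (U : (M2 A)ˣ) (M : GQ →* M2 A) :
    AreConj M (Deformation.conjRep U M) := ⟨U, fun σ => by simp [mul_assoc]⟩

/-- Adic continuity of a matrix representation. -/
def MatCont [IsLocalRing A] (M : GQ →* M2 A) : Prop :=
  ∀ n : ℕ, ∃ L : IntermediateField ℚ (AlgebraicClosure ℚ), FiniteDimensional ℚ L ∧
    ∀ σ : GQ, (∀ x ∈ L, σ x = x) →
      ∀ i j, M σ i j - (1 : M2 A) i j ∈ IsLocalRing.maximalIdeal A ^ n

variable [IsLocalRing A] [IsLocalRing B]

/-- `M` is the matrix of `ρ` in some basis. -/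
def IsMatrixRep (ρ : GaloisRepAdic A) (M : GQ →* M2 A) : Prop :=
  ∃ b : Module.Basis (Fin 2) A ρ.V, ∀ σ, LinearMap.toMatrix b b (ρ.ρ σ) = M σ

lemma exists_isMatrixRep (ρ : GaloisRepAdic A) : ∃ M, IsMatrixRep ρ M := by
  let b : Module.Basis (Fin 2) A ρ.V := Module.finBasisOfFinrankEq A ρ.V ρ.finrank_eq
  exact ⟨(LinearMap.toMatrixAlgEquiv b).toMulEquiv.toMonoidHom.comp ρ.ρ, b, fun _ => rfl⟩

omit [IsLocalRing A] in
/-- The coordinates of an element of `I • ⊤` lie in `I`. -/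
lemma repr_mem_of_mem_smul_top {V : Type} [AddCommGroup V] [Module A V]
    (b : Module.Basis (Fin 2) A V) (I : Ideal A) {v : V} (hv : v ∈ I • (⊤ : Submodule A V))
    (i : Fin 2) : b.repr v i ∈ I := by
  induction hv using Submodule.smul_induction_on' with
  | smul a ha w _ =>
    rw [map_smul, Finsupp.smul_apply, smul_eq_mul]
    exact I.mul_mem_right _ ha
  | add x _ y _ hx hy =>
    rw [map_add, Finsupp.add_apply]
    exact add_mem hx hy

lemma IsMatrixRep.matCont {ρ : GaloisRepAdic A} {M : GQ →* M2 A} (h : IsMatrixRep ρ M) :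
    MatCont M := by
  obtain ⟨b, hb⟩ := h
  intro n
  obtain ⟨L, hL, hL'⟩ := ρ.isAdicContinuous n
  refine ⟨L, hL, fun σ hσ i j => ?_⟩
  have h1 := repr_mem_of_mem_smul_top b _ (hL' σ hσ (b j)) i
  rw [map_sub, Finsupp.sub_apply, Module.Basis.repr_self] at h1
  rw [← hb σ, LinearMap.toMatrix_apply]
  rcases eq_or_ne j i with rfl | hji
  · simpa using h1
  · rw [Finsupp.single_eq_of_ne (Ne.symm hji)] at h1
    rw [Matrix.one_apply_ne (Ne.symm hji)]
    exact h1

/-- The Galois representation on `A²` given by matrices. -/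
def ofMatrix (M : GQ →* M2 A) (hM : MatCont M) : GaloisRepAdic A where
  V := Fin 2 → A
  finrank_eq := Module.finrank_fin_fun A
  ρ := (Matrix.toLinAlgEquiv' : M2 A ≃ₐ[A] Module.End A (Fin 2 → A)).toMulEquiv.toMonoidHom.comp M
  isAdicContinuous := by
    intro n
    obtain ⟨L, hL, h⟩ := hM n
    refine ⟨L, hL, fun σ hσ v => ?_⟩
    have h1 : (M σ).mulVec v - v = (M σ - 1).mulVec v := by
      rw [Matrix.sub_mulVec, Matrix.one_mulVec]
    show (M σ).mulVec v - v ∈ _
    rw [h1, pi_eq_sum_univ ((M σ - 1).mulVec v)]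
    refine Submodule.sum_mem _ fun i _ => Submodule.smul_mem_smul ?_ Submodule.mem_top
    simp only [Matrix.mulVec, dotProduct, Matrix.sub_apply]
    exact Ideal.sum_mem _ fun j _ => Ideal.mul_mem_right _ _ (h σ hσ i j)

lemma isMatrixRep_ofMatrix (M : GQ →* M2 A) (hM : MatCont M) :
    IsMatrixRep (ofMatrix M hM) M :=
  ⟨Pi.basisFun A (Fin 2), fun σ => by
    show LinearMap.toMatrix (Pi.basisFun A (Fin 2)) (Pi.basisFun A (Fin 2))
      (Matrix.toLin' (M σ)) = M σ
    rw [LinearMap.toMatrix_eq_toMatrix', LinearMap.toMatrix'_toLin']⟩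

/-- Two adic representations are equivalent iff their matrices are conjugate. -/
lemma isEquiv_iff_areConj {ρ ρ' : GaloisRepAdic A} {M N : GQ →* M2 A}
    (hM : IsMatrixRep ρ M) (hN : IsMatrixRep ρ' N) : ρ.IsEquiv ρ' ↔ AreConj M N := by
  obtain ⟨b, hb⟩ := hM
  obtain ⟨b', hb'⟩ := hN
  constructor
  · rintro ⟨e⟩
    refine ⟨⟨LinearMap.toMatrix b b' e.toLinearEquiv.toLinearMap,
      LinearMap.toMatrix b' b e.toLinearEquiv.symm.toLinearMap, ?_, ?_⟩, fun σ => ?_⟩
    · rw [← LinearMap.toMatrix_comp, LinearEquiv.comp_symm, LinearMap.toMatrix_id]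
    · rw [← LinearMap.toMatrix_comp, LinearEquiv.symm_comp, LinearMap.toMatrix_id]
    · show LinearMap.toMatrix b b' e.toLinearEquiv.toLinearMap * M σ =
        N σ * LinearMap.toMatrix b b' e.toLinearEquiv.toLinearMap
      rw [← hb σ, ← hb' σ, ← LinearMap.toMatrix_comp, ← LinearMap.toMatrix_comp]
      congr 1
      exact LinearMap.ext fun x => e.map_apply σ x
  · rintro ⟨U, hU⟩
    refine ⟨⟨LinearEquiv.ofLinearMap (Matrix.toLin b b' (U : M2 A))
      (Matrix.toLin b' b ((U⁻¹ : (M2 A)ˣ) : M2 A)) ?_ ?_, fun σ x => ?_⟩⟩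
    · rw [← Matrix.toLin_mul, Units.mul_inv, Matrix.toLin_one]
    · rw [← Matrix.toLin_mul, Units.inv_mul, Matrix.toLin_one]
    · have h1 : (Matrix.toLin b b' (U : M2 A)).comp (ρ.ρ σ) =
          (ρ'.ρ σ).comp (Matrix.toLin b b' (U : M2 A)) := by
        apply (LinearMap.toMatrix b b').injective
        rw [LinearMap.toMatrix_comp b b b', LinearMap.toMatrix_comp b b' b',
          LinearMap.toMatrix_toLin, hb, hb', hU]
      exact LinearMap.congr_fun h1 x

lemma IsMatrixRep.isEquiv {ρ ρ' : GaloisRepAdic A} {M : GQ →* M2 A}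
    (hM : IsMatrixRep ρ M) (hN : IsMatrixRep ρ' M) : ρ.IsEquiv ρ' :=
  (isEquiv_iff_areConj hM hN).mpr (AreConj.refl M)

lemma IsMatrixRep.conjRep {ρ : GaloisRepAdic A} {M : GQ →* M2 A} (hM : IsMatrixRep ρ M)
    (U : (M2 A)ˣ) : IsMatrixRep ρ (Deformation.conjRep U M) := by
  obtain ⟨b, hb⟩ := hM
  let e : ρ.V ≃ₗ[A] ρ.V :=
    LinearEquiv.ofLinearMap (Matrix.toLin b b ((U⁻¹ : (M2 A)ˣ) : M2 A))
      (Matrix.toLin b b (U : M2 A))
      (by rw [← Matrix.toLin_mul, Units.inv_mul, Matrix.toLin_one])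
      (by rw [← Matrix.toLin_mul, Units.mul_inv, Matrix.toLin_one])
  refine ⟨b.map e, fun σ => ?_⟩
  have h1 : LinearMap.toMatrix (b.map e) (b.map e) (ρ.ρ σ) =
      LinearMap.toMatrix b b ((e.symm.toLinearMap.comp (ρ.ρ σ)).comp e.toLinearMap) := by
    ext i j
    simp [LinearMap.toMatrix_apply]
  rw [h1, LinearMap.toMatrix_comp b b b, LinearMap.toMatrix_comp b b b, hb σ, conjRep_apply]
  simp [e]

lemma IsMatrixRep.baseChangeAlong {ρ : GaloisRepAdic A} {M : GQ →* M2 A} (hM : IsMatrixRep ρ M)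
    (φ : A →+* B) (hφ : IsLocalHom φ) :
    IsMatrixRep (ρ.baseChangeAlong φ hφ) (mapRep φ M) := by
  obtain ⟨b, hb⟩ := hM
  let : Algebra A B := φ.toAlgebra
  refine ⟨b.baseChange B, fun σ => ?_⟩
  ext i j
  rw [LinearMap.toMatrix_apply, mapRep_apply, Matrix.map_apply, ← hb σ, LinearMap.toMatrix_apply]
  show (b.baseChange B).repr ((ρ.ρ σ).baseChange B (b.baseChange B j)) i = _
  rw [Module.Basis.baseChange_apply, LinearMap.baseChange_tmul, Module.Basis.baseChange_repr_tmul,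
    Algebra.smul_def, mul_one]
  rfl

/-! ### Residual representations -/

section Residual

variable {k k' : Type} [Field k] [Field k']

/-- The matrices `M σ` are those of the residual representation `ρ` in some basis. -/
def IsResMatrixRep (ρ : ResidualGaloisRep k) (M : GQ →* M2 k) : Prop :=
  ∃ b : Module.Basis (Fin 2) k ρ.V, ∀ σ, LinearMap.toMatrix b b (ρ.ρ σ) = M σ

lemma exists_isResMatrixRep (ρ : ResidualGaloisRep k) : ∃ M, IsResMatrixRep ρ M := by
  let b : Module.Basis (Fin 2) k ρ.V := Module.finBasisOfFinrankEq k ρ.V ρ.finrank_eq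
  exact ⟨(LinearMap.toMatrixAlgEquiv b).toMulEquiv.toMonoidHom.comp ρ.ρ, b, fun _ => rfl⟩

lemma IsResMatrixRep.ofResidual {ρ : ResidualGaloisRep k} {M : GQ →* M2 k}
    (h : IsResMatrixRep ρ M) : IsMatrixRep (GaloisRepAdic.ofResidualGaloisRep ρ) M := h

lemma isResEquiv_iff_areConj {ρ ρ' : ResidualGaloisRep k} {M N : GQ →* M2 k}
    (hM : IsResMatrixRep ρ M) (hN : IsResMatrixRep ρ' N) : ρ.IsEquiv ρ' ↔ AreConj M N := by
  rw [← isEquiv_iff_areConj hM.ofResidual hN.ofResidual]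
  exact ⟨fun ⟨e⟩ => ⟨⟨e.toLinearEquiv, e.map_apply⟩⟩, fun ⟨e⟩ => ⟨⟨e.toLinearEquiv, e.map_apply⟩⟩⟩

lemma IsResMatrixRep.baseChange [Algebra k k'] {ρ : ResidualGaloisRep k} {M : GQ →* M2 k}
    (hM : IsResMatrixRep ρ M) :
    IsResMatrixRep (ρ.baseChange k') (mapRep (algebraMap k k') M) := by
  obtain ⟨b, hb⟩ := hM
  refine ⟨b.baseChange k', fun σ => ?_⟩
  ext i j
  rw [LinearMap.toMatrix_apply, mapRep_apply, Matrix.map_apply, ← hb σ, LinearMap.toMatrix_apply]
  show (b.baseChange k').repr ((ρ.ρ σ).baseChange k' (b.baseChange k' j)) i = _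
  rw [Module.Basis.baseChange_apply, LinearMap.baseChange_tmul, Module.Basis.baseChange_repr_tmul,
    Algebra.smul_def, mul_one]

lemma IsResMatrixRep.baseChangeAlong {ρ : ResidualGaloisRep k} {M : GQ →* M2 k}
    (hM : IsResMatrixRep ρ M) (φ : k →+* k') :
    IsResMatrixRep (ρ.baseChangeAlong φ) (mapRep φ M) := by
  let : Algebra k k' := φ.toAlgebra
  exact hM.baseChange

lemma IsMatrixRep.residual {ρ : GaloisRepAdic A} {M : GQ →* M2 A} (hM : IsMatrixRep ρ M) :
    IsResMatrixRep ρ.residual (mapRep (IsLocalRing.residue A) M) := by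
  obtain ⟨b, hb⟩ := hM
  refine ⟨b.baseChange (IsLocalRing.ResidueField A), fun σ => ?_⟩
  ext i j
  rw [LinearMap.toMatrix_apply, mapRep_apply, Matrix.map_apply, ← hb σ, LinearMap.toMatrix_apply]
  show (b.baseChange (IsLocalRing.ResidueField A)).repr
    ((ρ.ρ σ).baseChange (IsLocalRing.ResidueField A)
      (b.baseChange (IsLocalRing.ResidueField A) j)) i = _
  rw [Module.Basis.baseChange_apply, LinearMap.baseChange_tmul, Module.Basis.baseChange_repr_tmul,
    Algebra.smul_def, mul_one]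
  rfl

end Residual

end Fermat.Agent.Deformation

end
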