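import Fermat.Agent.Deformation.MatrixRep

/-!
# Normalised lifts of a residual matrix representation

Fix a residual matrix representation `M0` over the residue field of `𝒪` and two formal
`𝒪`-linear combinations `a`, `b` of group elements mapping to the matrix units `E₁₁`, `E₁₂`.
A lift `M` over a local `𝒪`-algebra is normalised if `M(a)` is diagonal and `M(b)₁₂ = 1`.
Over a complete local ring every lift is conjugate to a unique normalised one
(`RigidData.IsLift.exists_normal`, `RigidData.IsNormal.eq_of_areConj`).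
-/

set_option autoImplicit false

noncomputable section

open IsLocalRing Matrix

namespace Fermat.Agent.Deformation

variable {𝒪 : Type} [CommRing 𝒪]

/-- Evaluate a formal linear combination of group elements on a matrix valued function. -/
def evalComb {A : Type} [CommRing A] [Algebra 𝒪 A] (E : GQ → M2 A) (a : GQ →₀ 𝒪) : M2 A :=
  a.sum fun g c => c • E g

lemma evalComb_map {A B : Type} [CommRing A] [CommRing B] [Algebra 𝒪 A] [Algebra 𝒪 B]
    (φ : A →+* B) (hφ : ∀ r : 𝒪, φ (algebraMap 𝒪 A r) = algebraMap 𝒪 B r)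
    (E : GQ → M2 A) (a : GQ →₀ 𝒪) :
    (evalComb E a).map φ = evalComb (fun g => (E g).map φ) a := by
  have h : (evalComb E a).map φ = φ.mapMatrix (evalComb E a) := rfl
  rw [h, evalComb, evalComb, Finsupp.sum, Finsupp.sum, map_sum]
  refine Finset.sum_congr rfl fun g _ => Matrix.ext fun i j => ?_
  simp only [RingHom.mapMatrix_apply, Matrix.map_apply, Matrix.smul_apply]
  rw [Algebra.smul_def, map_mul, hφ, Algebra.smul_def]

lemma evalComb_conj {A : Type} [CommRing A] [Algebra 𝒪 A] (U V : M2 A) (E : GQ → M2 A)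
    (a : GQ →₀ 𝒪) : evalComb (fun g => U * E g * V) a = U * evalComb E a * V := by
  simp [evalComb, Finsupp.sum, Finset.mul_sum, Finset.sum_mul]

variable [IsLocalRing 𝒪]

/-- The data fixing a rigidification. -/
structure RigidData (𝒪 : Type) [CommRing 𝒪] [IsLocalRing 𝒪] : Type where
  M0 : GQ →* M2 (ResidueField 𝒪)
  a : GQ →₀ 𝒪
  b : GQ →₀ 𝒪
  ha : evalComb (M0 : GQ → M2 (ResidueField 𝒪)) a = !![1, 0; 0, 0]
  hb : evalComb (M0 : GQ → M2 (ResidueField 𝒪)) b = !![0, 1; 0, 0]

variable (D : RigidData 𝒪) {A : Type} [CommRing A] [IsLocalRing A] [Algebra 𝒪 A]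
  [IsLocalHom (algebraMap 𝒪 A)]

/-- `M` reduces to `M0`. -/
def RigidData.IsLift (M : GQ →* M2 A) : Prop :=
  mapRep (residue A) M = mapRep (ResidueField.map (algebraMap 𝒪 A)) D.M0

/-- `M` is a normalised lift of `M0`. -/
structure RigidData.IsNormal (M : GQ →* M2 A) : Prop where
  lift : D.IsLift M
  a01 : evalComb (M : GQ → M2 A) D.a 0 1 = 0
  a10 : evalComb (M : GQ → M2 A) D.a 1 0 = 0
  b01 : evalComb (M : GQ → M2 A) D.b 0 1 = 1

variable {D}

lemma RigidData.IsLift.residue_evalComb {M : GQ →* M2 A} (h : D.IsLift M) (c : GQ →₀ 𝒪) :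
    (evalComb (M : GQ → M2 A) c).map (residue A) =
      (evalComb (D.M0 : GQ → M2 (ResidueField 𝒪)) c).map (ResidueField.map (algebraMap 𝒪 A)) := by
  have h1 : ∀ E : GQ → M2 A, (evalComb E c).map (residue A) =
      evalComb (fun g => (E g).map (residue A)) c :=
    fun E => evalComb_map (𝒪 := 𝒪) (residue A) (fun r => rfl) E c
  have h2 : ∀ E : GQ → M2 (ResidueField 𝒪),
      (evalComb E c).map (ResidueField.map (algebraMap 𝒪 A)) =
        evalComb (fun g => (E g).map (ResidueField.map (algebraMap 𝒪 A))) c :=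
    fun E => evalComb_map (𝒪 := 𝒪) (ResidueField.map (algebraMap 𝒪 A)) (fun r => rfl) E c
  rw [h1, h2]
  refine congrArg (fun E => evalComb E c) (funext fun g => ?_)
  exact DFunLike.congr_fun h g

lemma RigidData.IsLift.residue_a {M : GQ →* M2 A} (h : D.IsLift M) (i j : Fin 2) :
    residue A (evalComb (M : GQ → M2 A) D.a i j) = (!![1, 0; 0, 0] : M2 (ResidueField A)) i j := by
  have h1 := congrFun (congrFun (h.residue_evalComb D.a) i) j
  rw [D.ha] at h1
  fin_cases i <;> fin_cases j <;> simpa using h1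

lemma RigidData.IsLift.residue_b {M : GQ →* M2 A} (h : D.IsLift M) (i j : Fin 2) :
    residue A (evalComb (M : GQ → M2 A) D.b i j) = (!![0, 1; 0, 0] : M2 (ResidueField A)) i j := by
  have h1 := congrFun (congrFun (h.residue_evalComb D.b) i) j
  rw [D.hb] at h1
  fin_cases i <;> fin_cases j <;> simpa using h1

omit [Algebra 𝒪 A] [IsLocalHom (algebraMap 𝒪 A)] in
/-- A matrix with invertible reduction is invertible. -/
lemma isUnit_of_residue (U : M2 A) (h : IsUnit (U.map (residue A))) : IsUnit U := by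
  rw [Matrix.isUnit_iff_isUnit_det] at h ⊢
  have h2 : (residue A) U.det = (U.map (residue A)).det := RingHom.map_det _ _
  rw [← h2] at h
  exact isUnit_of_map_unit (residue A) _ h

/-- Conjugation by a matrix reducing to one preserves lifts. -/
lemma RigidData.IsLift.conjRep {M : GQ →* M2 A} (h : D.IsLift M) {U : (M2 A)ˣ}
    (hU : (U : M2 A).map (residue A) = 1) : D.IsLift (Deformation.conjRep U M) := by
  have hU' : (↑U⁻¹ : M2 A).map (residue A) = 1 := by
    have h1 : ((U : M2 A) * (↑U⁻¹ : M2 A)).map (residue A) = 1 := by simp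
    rwa [Matrix.map_mul, hU, one_mul] at h1
  rw [RigidData.IsLift] at h ⊢
  rw [← h]
  refine MonoidHom.ext fun σ => ?_
  rw [mapRep_apply, conjRep_apply, Matrix.map_mul, Matrix.map_mul, hU, hU', one_mul, mul_one,
    mapRep_apply]

/-- If the reduction of `M` is conjugate to `M0`, some conjugate of `M` is a lift. -/
lemma RigidData.exists_isLift_conj (D : RigidData 𝒪) {M : GQ →* M2 A}
    (h : AreConj (mapRep (residue A) M) (mapRep (ResidueField.map (algebraMap 𝒪 A)) D.M0)) :
    ∃ U : (M2 A)ˣ, D.IsLift (Deformation.conjRep U M) := by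
  obtain ⟨U0, hU0⟩ := h
  have hs : ∀ i j, ∃ x : A, residue A x = (U0 : M2 (ResidueField A)) i j :=
    fun i j => residue_surjective _
  choose f hf using hs
  have hmap : (Matrix.of f).map (residue A) = (U0 : M2 (ResidueField A)) := Matrix.ext hf
  obtain ⟨U, hU⟩ := isUnit_of_residue (Matrix.of f) (by rw [hmap]; exact U0.isUnit)
  refine ⟨U, ?_⟩
  have hinv : (↑U⁻¹ : M2 A).map (residue A) = (↑U0⁻¹ : M2 (ResidueField A)) := by
    have h1 : ((U : M2 A) * (↑U⁻¹ : M2 A)).map (residue A) = 1 := by simp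
    rw [Matrix.map_mul, hU, hmap] at h1
    exact (Units.inv_eq_of_mul_eq_one_right h1).symm
  rw [RigidData.IsLift]
  refine MonoidHom.ext fun σ => ?_
  have h2 := hU0 σ
  rw [mapRep_apply, mapRep_apply] at h2
  rw [mapRep_apply, conjRep_apply, Matrix.map_mul, Matrix.map_mul, hU, hmap, hinv, h2, mapRep_apply,
    mul_assoc, Units.mul_inv, mul_one]

/-- Every lift over a complete local ring has a normalised conjugate. -/
theorem RigidData.IsLift.exists_normal [IsAdicComplete (maximalIdeal A) A] {M : GQ →* M2 A}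
    (h : D.IsLift M) : ∃ U : (M2 A)ˣ, D.IsNormal (Deformation.conjRep U M) := by
  -- diagonalise `M(a)`
  set T : M2 A := evalComb (M : GQ → M2 A) D.a with hT
  have r00 : residue A (T 0 0) = 1 := by simpa using h.residue_a 0 0
  have r01 : residue A (T 0 1) = 0 := by simpa using h.residue_a 0 1
  have r10 : residue A (T 1 0) = 0 := by simpa using h.residue_a 1 0
  have r11 : residue A (T 1 1) = 0 := by simpa using h.residue_a 1 1
  let f : Polynomial A := Polynomial.X ^ 2 +
    (Polynomial.C (-(T 0 0 + T 1 1)) * Polynomial.X +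
      Polynomial.C (T 0 0 * T 1 1 - T 0 1 * T 1 0))
  have hmonic : f.Monic :=
    Polynomial.monic_X_pow_add (Polynomial.degree_linear_le.trans_lt (by norm_num))
  obtain ⟨l, hl, hl1⟩ := HenselianRing.is_henselian (I := maximalIdeal A) f hmonic 1
    (by
      rw [← residue_eq_zero_iff]
      simp [f, r00, r01, r10, r11])
    (by
      have : residue A (f.derivative.eval 1) = 1 := by
        simp [f, r00, r11]
      have h1 : IsUnit (residue A (f.derivative.eval 1)) := by rw [this]; exact isUnit_one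
      exact h1)
  have rl : residue A l = 1 := by
    have := (residue_eq_zero_iff _).mpr hl1
    rwa [map_sub, map_one, sub_eq_zero] at this
  have hl' : l ^ 2 + (-(T 0 0 + T 1 1) * l + (T 0 0 * T 1 1 - T 0 1 * T 1 0)) = 0 := by
    simpa [f, Polynomial.IsRoot] using hl
  set m : A := T 0 0 + T 1 1 - l with hm
  let U : M2 A := !![T 0 0 - m, -(T 0 1); T 1 0, l - T 1 1]
  have hUres : U.map (residue A) = 1 := by
    ext i j
    fin_cases i <;> fin_cases j <;> simp [U, m, r00, r01, r10, r11, rl]
  have hTU : T * U = U * !![l, 0; 0, m] := by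
    ext i j
    fin_cases i <;> fin_cases j <;> simp [U, Matrix.mul_apply, Fin.sum_univ_two, m] <;>
      first
        | linear_combination hl'
        | linear_combination -hl'
        | ring
  obtain ⟨U', hU'⟩ := isUnit_of_residue U (by rw [hUres]; exact isUnit_one)
  have hU'res : ((U'⁻¹ : (M2 A)ˣ) : M2 A).map (residue A) = 1 := by
    have h1 : ((U' : M2 A) * (↑U'⁻¹ : M2 A)).map (residue A) = 1 := by simp
    rwa [Matrix.map_mul, hU', hUres, one_mul] at h1
  set M' : GQ →* M2 A := Deformation.conjRep U'⁻¹ M with hM'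
  have h' : D.IsLift M' := h.conjRep hU'res
  have haM' : evalComb (M' : GQ → M2 A) D.a = !![l, 0; 0, m] := by
    have e1 : evalComb (M' : GQ → M2 A) D.a = (↑U'⁻¹ : M2 A) * T * U := by
      rw [hT, ← evalComb_conj]
      refine congrArg (fun E => evalComb E D.a) (funext fun g => ?_)
      rw [hM', conjRep_apply, inv_inv, hU']
    rw [e1, mul_assoc, hTU, ← hU', ← mul_assoc, Units.inv_mul, one_mul]
  -- rescale
  set c : A := evalComb (M' : GQ → M2 A) D.b 0 1 with hc
  have rc : residue A c = 1 := by simpa using h'.residue_b 0 1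
  obtain ⟨cu, hcu⟩ := isUnit_of_map_unit (residue A) c (by rw [rc]; exact isUnit_one)
  let W : (M2 A)ˣ := ⟨!![1, 0; 0, (cu : A)], !![1, 0; 0, (↑cu⁻¹ : A)],
    by ext i j; fin_cases i <;> fin_cases j <;> simp [Matrix.mul_apply, Fin.sum_univ_two],
    by ext i j; fin_cases i <;> fin_cases j <;> simp [Matrix.mul_apply, Fin.sum_univ_two]⟩
  have hWres : (W : M2 A).map (residue A) = 1 := by
    ext i j
    fin_cases i <;> fin_cases j <;> simp [W, hcu, rc]
  refine ⟨W * U'⁻¹, ?_⟩
  have hcomp : Deformation.conjRep (W * U'⁻¹) M = Deformation.conjRep W M' := by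
    refine MonoidHom.ext fun σ => ?_
    simp [hM', mul_assoc]
  rw [hcomp]
  have hev : ∀ x : GQ →₀ 𝒪, evalComb (Deformation.conjRep W M' : GQ → M2 A) x =
      (W : M2 A) * evalComb (M' : GQ → M2 A) x * (↑W⁻¹ : M2 A) := by
    intro x
    rw [← evalComb_conj]
    rfl
  refine ⟨h'.conjRep hWres, ?_, ?_, ?_⟩
  · rw [hev, haM']
    simp [W, Matrix.mul_apply, Fin.sum_univ_two]
  · rw [hev, haM']
    simp [W, Matrix.mul_apply, Fin.sum_univ_two]
  · rw [hev]
    simp [W, Matrix.mul_apply, Matrix.vecMul, dotProduct, Fin.sum_univ_two, ← hc]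
    rw [hcu]

/-- Conjugate normalised lifts are equal. -/
theorem RigidData.IsNormal.eq_of_areConj {M N : GQ →* M2 A} (hM : D.IsNormal M) (hN : D.IsNormal N)
    (h : AreConj M N) : M = N := by
  obtain ⟨U, hU⟩ := h
  set p := evalComb (M : GQ → M2 A) D.a with hp
  set q := evalComb (N : GQ → M2 A) D.a with hq
  have hev : ∀ x : GQ →₀ 𝒪, (U : M2 A) * evalComb (M : GQ → M2 A) x =
      evalComb (N : GQ → M2 A) x * (U : M2 A) := by
    intro x
    simp only [evalComb, Finsupp.sum, Finset.mul_sum, Finset.sum_mul, mul_smul_comm,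
      smul_mul_assoc, hU]
  have ha := hev D.a
  have e01 := congrFun (congrFun ha 0) 1
  have e10 := congrFun (congrFun ha 1) 0
  simp only [Matrix.mul_apply, Fin.sum_univ_two, hM.a01, hM.a10, hN.a01, hN.a10, mul_zero,
    zero_mul, zero_add, add_zero] at e01 e10
  have u01 : (U : M2 A) 0 1 = 0 := by
    have hu : IsUnit (p 1 1 - q 0 0) := by
      refine isUnit_of_map_unit (residue A) _ ?_
      rw [map_sub, hp, hq, hM.lift.residue_a 1 1, hN.lift.residue_a 0 0]
      simp
    refine hu.mul_left_eq_zero.mp ?_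
    rw [mul_sub, sub_eq_zero, hp, hq, e01, mul_comm]
  have u10 : (U : M2 A) 1 0 = 0 := by
    have hu : IsUnit (p 0 0 - q 1 1) := by
      refine isUnit_of_map_unit (residue A) _ ?_
      rw [map_sub, hp, hq, hM.lift.residue_a 0 0, hN.lift.residue_a 1 1]
      simp
    refine hu.mul_left_eq_zero.mp ?_
    rw [mul_sub, sub_eq_zero, hp, hq, e10, mul_comm]
  have eb := congrFun (congrFun (hev D.b) 0) 1
  simp only [Matrix.mul_apply, Fin.sum_univ_two, hM.b01, hN.b01, u01, mul_one, one_mul, mul_zero,
    zero_mul, zero_add, add_zero] at eb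
  have hUs : (U : M2 A) = (U : M2 A) 0 0 • (1 : M2 A) := by
    ext i j
    fin_cases i <;> fin_cases j <;> simp [u01, u10, eb]
  refine MonoidHom.ext fun σ => ?_
  apply U.isUnit.mul_left_cancel
  rw [hU σ]
  conv_lhs => rw [hUs]
  conv_rhs => rw [hUs]
  simp

/-- Functoriality of normalised lifts. -/
lemma RigidData.IsNormal.map {M : GQ →* M2 A} (h : D.IsNormal M) {B : Type} [CommRing B]
    [IsLocalRing B] [Algebra 𝒪 B] [IsLocalHom (algebraMap 𝒪 B)] (φ : A →ₐ[𝒪] B)
    [IsLocalHom (φ : A →+* B)] : D.IsNormal (mapRep (φ : A →+* B) M) := by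
  have hev : ∀ x : GQ →₀ 𝒪, evalComb (mapRep (φ : A →+* B) M : GQ → M2 B) x =
      (evalComb (M : GQ → M2 A) x).map φ := fun x =>
    (evalComb_map (φ : A →+* B) (fun r => φ.commutes r) _ x).symm
  refine ⟨?_, ?_, ?_, ?_⟩
  · have h1 : (residue B).comp (φ : A →+* B) =
        (ResidueField.map (φ : A →+* B)).comp (residue A) := (ResidueField.map_comp_residue _).symm
    have h2 : (ResidueField.map (φ : A →+* B)).comp (ResidueField.map (algebraMap 𝒪 A)) =
        ResidueField.map (algebraMap 𝒪 B) := by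
      refine Ideal.Quotient.ringHom_ext (RingHom.ext fun r => ?_)
      show residue B (φ (algebraMap 𝒪 A r)) = residue B (algebraMap 𝒪 B r)
      rw [φ.commutes]
    rw [RigidData.IsLift, mapRep_comp, h1, ← mapRep_comp, h.lift, mapRep_comp, h2]
  · rw [hev, Matrix.map_apply, h.a01, map_zero]
  · rw [hev, Matrix.map_apply, h.a10, map_zero]
  · rw [hev, Matrix.map_apply, h.b01, map_one]

end Fermat.Agent.Deformation

end
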