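import Fermat.Agent.Deformation.Admissible

/-!
# The tangent space bound on the number of generators

If the tangent space of a deformation condition is finite, the maximal ideals of all quotients by
admissible ideals are generated by a bounded number of elements (`exists_generators_bound`).
-/

set_option autoImplicit false

noncomputable section

open IsLocalRing
open TrivSqZeroExt (inl inr)

namespace Fermat.Agent.Deformation

open GaloisRep (IsArtinianTestAlgebra IsDeformationCondition)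

variable {𝒪 : Type} [CommRing 𝒪] [IsLocalRing 𝒪] [Finite (ResidueField 𝒪)]
  {𝒟 : ∀ ⦃A : Type⦄ [CommRing A] [IsLocalRing A] [Algebra 𝒪 A], GaloisRepAdic A → Prop}
  {ρbar : ResidualGaloisRep (ResidueField 𝒪)} {D : RigidData 𝒪}

/-- A finite tangent space bounds the cotangent space of test algebras generated by a good lift. -/
theorem exists_cotangent_bound (h𝒟 : IsDeformationCondition 𝒪 𝒟)
    (hfin : GaloisRep.TangentFinite 𝒪 ρbar 𝒟) (hD : IsResMatrixRep ρbar D.M0) :
    ∃ T : ℕ, ∀ (B : Type) [CommRing B] [IsLocalRing B] [Algebra 𝒪 B]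
      [IsLocalHom (algebraMap 𝒪 B)],
      IsArtinianTestAlgebra 𝒪 B → (∀ r ∈ maximalIdeal 𝒪, algebraMap 𝒪 B r = 0) →
      ∀ M : GQ →* M2 B, IsGood D 𝒟 M → Function.Surjective (repEval (𝒪 := 𝒪) M) →
        Nat.card (CotangentSpace B) ≤ T := by
  let k := ResidueField 𝒪
  let algDN : Algebra 𝒪 (DualNumber k) :=
    ((algebraMap k (DualNumber k)).comp (algebraMap 𝒪 k)).toAlgebra
  let algRes : Algebra k (ResidueField (DualNumber k)) :=
    ((IsLocalRing.residue (DualNumber k)).comp (algebraMap k (DualNumber k))).toAlgebra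
  let st : Setoid {ρ : GaloisRepAdic (DualNumber k) //
      𝒟 ρ ∧ ρ.residual.IsEquiv (ρbar.baseChange (ResidueField (DualNumber k)))} :=
    ⟨fun ρ ρ' => ρ.1.IsEquiv ρ'.1, ⟨fun ρ => ⟨GaloisRepAdic.Equiv.refl ρ.1⟩,
      fun ⟨e⟩ => ⟨e.symm⟩, fun ⟨e⟩ ⟨e'⟩ => ⟨e.trans e'⟩⟩⟩
  have hfinQ : Finite (Quotient st) := hfin
  have : Finite (DualNumber k) := inferInstanceAs (Finite (k × k))
  have halg : ∀ r : 𝒪, algebraMap 𝒪 (DualNumber k) r = inl (residue 𝒪 r) := fun r => rfl
  have hlocDN : IsLocalHom (algebraMap 𝒪 (DualNumber k)) := by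
    refine ⟨fun r hr => ?_⟩
    rw [halg, TrivSqZeroExt.isUnit_iff_isUnit_fst, TrivSqZeroExt.fst_inl] at hr
    exact isUnit_of_map_unit (residue 𝒪) r hr
  have := hlocDN
  have hTDN : IsArtinianTestAlgebra 𝒪 (DualNumber k) := by
    refine isTest_of_finite hlocDN fun a => ?_
    obtain ⟨r, hr⟩ := residue_surjective (TrivSqZeroExt.fst a)
    refine ⟨r, ?_⟩
    rw [IsLocalRing.mem_maximalIdeal, mem_nonunits_iff, TrivSqZeroExt.isUnit_iff_isUnit_fst,
      TrivSqZeroExt.fst_sub, halg, TrivSqZeroExt.fst_inl, hr, sub_self]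
    exact not_isUnit_zero
  refine ⟨Nat.card (Quotient st), ?_⟩
  intro B _ _ _ _ hB hπ M hM hsurj
  have := hB.isArtinian
  have hkB : Finite (ResidueField B) := finite_residueField hB.residue_surjective
  have : Finite B := IsTest.finite hB
  have : Finite (CotangentSpace B) := Finite.of_surjective _ (maximalIdeal B).toCotangent_surjective
  let ιe : k ≃+* ResidueField B := RingEquiv.ofBijective _ (resMap_bijective hB.residue_surjective)
  let σ : k →+* B := Ideal.Quotient.lift (maximalIdeal 𝒪) (algebraMap 𝒪 B) hπ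
  let r : B →+* k := ιe.symm.toRingHom.comp (residue B)
  have hσ : ∀ z, residue B (σ z) = ιe z := fun z => by
    obtain ⟨a, rfl⟩ := residue_surjective z
    rfl
  have hrσ : ∀ z, r (σ z) = z := fun z => by
    show ιe.symm (residue B (σ z)) = z
    rw [hσ, RingEquiv.symm_apply_apply]
  have hmem : ∀ b, b - σ (r b) ∈ maximalIdeal B := fun b => by
    rw [← residue_eq_zero_iff, map_sub, hσ, sub_eq_zero]
    exact (ιe.apply_symm_apply _).symm
  let δ : Module.Dual (ResidueField B) (CotangentSpace B) → B → k := fun f b =>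
    ιe.symm (f ((maximalIdeal B).toCotangent ⟨b - σ (r b), hmem b⟩))
  have hsmul : ∀ (f : Module.Dual (ResidueField B) (CotangentSpace B)) (x : B)
      (y : maximalIdeal B), f ((maximalIdeal B).toCotangent (x • y)) =
        residue B x * f ((maximalIdeal B).toCotangent y) := by
    intro f x y
    rw [map_smul, ← algebraMap_smul (ResidueField B) x, map_smul]
    rfl
  have hadd : ∀ f b c, δ f (b + c) = δ f b + δ f c := by
    intro f b c
    have h1 : (⟨b + c - σ (r (b + c)), hmem _⟩ : maximalIdeal B) =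
        ⟨b - σ (r b), hmem b⟩ + ⟨c - σ (r c), hmem c⟩ := by
      apply Subtype.ext
      simp only [Submodule.coe_add, map_add]
      ring
    simp only [δ]
    rw [h1, map_add, map_add, map_add]
  have hzero : ∀ f z, δ f (σ z) = 0 := by
    intro f z
    have h1 : (⟨σ z - σ (r (σ z)), hmem _⟩ : maximalIdeal B) = 0 := by
      apply Subtype.ext
      simp [hrσ]
    simp only [δ, h1, map_zero]
  have hleib : ∀ f b c, δ f (b * c) = r b * δ f c + r c * δ f b := by
    intro f b c
    have h1 : (⟨b * c - σ (r (b * c)), hmem _⟩ : maximalIdeal B) =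
        b • (⟨c - σ (r c), hmem c⟩ : maximalIdeal B) +
          σ (r c) • (⟨b - σ (r b), hmem b⟩ : maximalIdeal B) := by
      apply Subtype.ext
      simp only [Submodule.coe_add, SetLike.val_smul, map_mul, smul_eq_mul]
      ring
    simp only [δ]
    rw [h1, map_add, map_add, map_add, hsmul, hsmul, map_mul, map_mul, hσ,
      RingEquiv.symm_apply_apply]
    rfl
  let Φ : Module.Dual (ResidueField B) (CotangentSpace B) → (B →ₐ[𝒪] DualNumber k) := fun f =>
    { toFun := fun b => inl (r b) + inr (δ f b)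
      map_one' := by
        have : δ f 1 = 0 := by rw [← map_one σ]; exact hzero f 1
        rw [this, map_one]
        simp
      map_mul' := fun b c => by
        refine TrivSqZeroExt.ext ?_ ?_
        · simp
        · simp [hleib f b c, mul_comm]
      map_zero' := by
        have : δ f 0 = 0 := by rw [← map_zero σ]; exact hzero f 0
        rw [this, map_zero]
        simp
      map_add' := fun b c => by
        refine TrivSqZeroExt.ext ?_ ?_
        · simp only [map_add, TrivSqZeroExt.fst_add, TrivSqZeroExt.fst_inl, TrivSqZeroExt.fst_inr]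
          ring
        · simp only [hadd f b c, TrivSqZeroExt.snd_add, TrivSqZeroExt.snd_inl,
            TrivSqZeroExt.snd_inr]
          ring
      commutes' := fun a => by
        have h1 : algebraMap 𝒪 B a = σ (residue 𝒪 a) := rfl
        rw [halg, h1, hzero, hrσ]
        simp }
  have hgood : ∀ f, IsGood D 𝒟 (mapRep (Φ f : B →+* DualNumber k) M) :=
    fun f => hM.map h𝒟 hB hTDN (Φ f)
  have hcls : ∀ f, ∃ x : {ρ : GaloisRepAdic (DualNumber k) //
      𝒟 ρ ∧ ρ.residual.IsEquiv (ρbar.baseChange (ResidueField (DualNumber k)))},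
      IsMatrixRep x.1 (mapRep (Φ f : B →+* DualNumber k) M) := by
    intro f
    obtain ⟨ρ, hρ, hDρ⟩ := (hgood f).isD
    refine ⟨⟨ρ, hDρ, ?_⟩, hρ⟩
    rw [isResEquiv_iff_areConj hρ.residual (hD.baseChange (k' := ResidueField (DualNumber k))),
      (hgood f).normal.lift]
    have : ResidueField.map (algebraMap 𝒪 (DualNumber k)) =
        algebraMap k (ResidueField (DualNumber k)) :=
      Ideal.Quotient.ringHom_ext (RingHom.ext fun a => rfl)
    rw [this]
    exact AreConj.refl _
  choose F hF using hcls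
  have hinj : Function.Injective fun f => (Quotient.mk st (F f)) := by
    intro f g hfg
    have h1 : (F f).1.IsEquiv (F g).1 := Quotient.exact hfg
    have h2 := (hgood f).normal.eq_of_areConj (hgood g).normal
      ((isEquiv_iff_areConj (hF f) (hF g)).mp h1)
    have h3 : (Φ f).comp (repEval M) = (Φ g).comp (repEval M) := by
      rw [repEval_comp, repEval_comp, h2]
    have h4 : Φ f = Φ g := AlgHom.ext fun b => by
      obtain ⟨p, rfl⟩ := hsurj b
      exact AlgHom.congr_fun h3 p
    refine LinearMap.ext fun v => ?_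
    obtain ⟨x, rfl⟩ := (maximalIdeal B).toCotangent_surjective v
    have h5 := congrArg TrivSqZeroExt.snd (AlgHom.congr_fun h4 (x : B))
    change TrivSqZeroExt.snd (inl (r x) + inr (δ f x) : DualNumber k) =
      TrivSqZeroExt.snd (inl (r x) + inr (δ g x) : DualNumber k) at h5
    simp only [TrivSqZeroExt.snd_add, TrivSqZeroExt.snd_inl, TrivSqZeroExt.snd_inr, zero_add,
      δ] at h5
    have hx : (⟨(x : B) - σ (r x), hmem x⟩ : maximalIdeal B) = x := by
      apply Subtype.ext
      have : r (x : B) = 0 := by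
        show ιe.symm (residue B (x : B)) = 0
        rw [(residue_eq_zero_iff _).mpr x.2, map_zero]
      simp [this]
    rw [hx] at h5
    exact ιe.symm.injective h5
  have h6 := Nat.card_le_card_of_injective _ hinj
  rwa [Module.natCard_eq_pow_finrank (K := ResidueField B), Subspace.dual_finrank_eq,
    ← Module.natCard_eq_pow_finrank (K := ResidueField B)] at h6

/-- Uniform bound on the number of generators of the maximal ideal. -/
theorem exists_generators_bound [IsNoetherianRing 𝒪] (h𝒟 : IsDeformationCondition 𝒪 𝒟)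
    (hfin : GaloisRep.TangentFinite 𝒪 ρbar 𝒟) (hD : IsResMatrixRep ρbar D.M0) :
    ∃ N : ℕ, ∀ (I : Ideal (EntryRing 𝒪)) [IsLocalRing (EntryRing 𝒪 ⧸ I)], IsAdm D 𝒟 I →
      ∃ s : Finset (EntryRing 𝒪 ⧸ I),
        Ideal.span (s : Set (EntryRing 𝒪 ⧸ I)) = maximalIdeal _ ∧ s.card ≤ N := by
  classical
  obtain ⟨T, hT⟩ := exists_cotangent_bound h𝒟 hfin hD
  obtain ⟨t, ht⟩ := IsNoetherian.noetherian (maximalIdeal 𝒪)
  refine ⟨T + t.card, fun I _ hI => ?_⟩
  obtain ⟨_, _, gI⟩ := hI.quotGood h𝒟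
  have hmI : (maximalIdeal 𝒪).map (algebraMap 𝒪 (EntryRing 𝒪)) ≤ augIdeal D :=
    Ideal.map_le_iff_le_comap.mpr fun a ha => algebraMap_mem_augIdeal D ha
  set J := I ⊔ (maximalIdeal 𝒪).map (algebraMap 𝒪 (EntryRing 𝒪)) with hJdef
  have hIJ : I ≤ J := le_sup_left
  have hJle : J ≤ augIdeal D := sup_le gI.le hmI
  have hJ : IsAdm D 𝒟 J := hI.of_le h𝒟 hIJ hJle
  obtain ⟨_, _, gJ⟩ := hJ.quotGood h𝒟
  have := gI.finite
  have := gJ.finite
  have := gI.isTest.isArtinian
  have := gJ.isTest.isArtinian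
  obtain ⟨MJ, hMJ, hMJσ⟩ := gJ.exists_good
  have hmk : Ideal.Quotient.mkₐ 𝒪 J = repEval MJ :=
    eq_repEval _ fun σ i j => by rw [hMJσ σ]; rfl
  have hπ : ∀ a ∈ maximalIdeal 𝒪, algebraMap 𝒪 (EntryRing 𝒪 ⧸ J) a = 0 := fun a ha => by
    rw [← Ideal.Quotient.mk_algebraMap, Ideal.Quotient.eq_zero_iff_mem]
    exact Submodule.mem_sup_right (Ideal.mem_map_of_mem _ ha)
  have hcard := hT (EntryRing 𝒪 ⧸ J) gJ.isTest hπ MJ hMJ
    (hmk ▸ Ideal.Quotient.mkₐ_surjective 𝒪 J)
  have : Finite (CotangentSpace (EntryRing 𝒪 ⧸ J)) :=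
    Finite.of_surjective _ (maximalIdeal (EntryRing 𝒪 ⧸ J)).toCotangent_surjective
  have := Fintype.ofFinite (CotangentSpace (EntryRing 𝒪 ⧸ J))
  set q := Ideal.Quotient.factor hIJ with hq
  have hmap : (maximalIdeal (EntryRing 𝒪 ⧸ I)).map q = maximalIdeal (EntryRing 𝒪 ⧸ J) := by
    rw [maximalIdeal_quotient gI.le, maximalIdeal_quotient hJle, Ideal.map_map,
      Ideal.Quotient.factor_comp_mk]
  have hlift : ∀ v : CotangentSpace (EntryRing 𝒪 ⧸ J), ∃ a : EntryRing 𝒪 ⧸ I,
      a ∈ maximalIdeal _ ∧ ∃ h : q a ∈ maximalIdeal (EntryRing 𝒪 ⧸ J),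
        (maximalIdeal (EntryRing 𝒪 ⧸ J)).toCotangent ⟨q a, h⟩ = v := by
    intro v
    obtain ⟨⟨x, hx⟩, rfl⟩ := (maximalIdeal (EntryRing 𝒪 ⧸ J)).toCotangent_surjective v
    have hx' : x ∈ (maximalIdeal (EntryRing 𝒪 ⧸ I)).map q := by rw [hmap]; exact hx
    obtain ⟨a, ha, rfl⟩ := (Ideal.mem_map_iff_of_surjective q
      (Ideal.Quotient.factor_surjective hIJ)).mp hx'
    exact ⟨a, ha, hx, rfl⟩
  choose g hg hgq hgv using hlift
  let s : Finset (EntryRing 𝒪 ⧸ I) :=
    Finset.univ.image g ∪ t.image (algebraMap 𝒪 (EntryRing 𝒪 ⧸ I))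
  refine ⟨s, le_antisymm (Ideal.span_le.mpr ?_) ?_, ?_⟩
  · intro a ha
    simp only [s, Finset.coe_union, Finset.coe_image, Finset.coe_univ, Set.image_univ] at ha
    rcases ha with ⟨v, rfl⟩ | ⟨b, hb, rfl⟩
    · exact hg v
    · have hb' : b ∈ maximalIdeal 𝒪 := ht ▸ Ideal.subset_span hb
      show _ ∈ maximalIdeal _
      rw [maximalIdeal_quotient gI.le, ← Ideal.Quotient.mk_algebraMap]
      exact Ideal.mem_map_of_mem _ (algebraMap_mem_augIdeal D hb')
  · refine Submodule.le_of_le_smul_of_le_jacobson_bot (IsNoetherian.noetherian _)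
      (maximalIdeal_le_jacobson ⊥) (fun a ha => ?_)
    have hqa : q a ∈ maximalIdeal (EntryRing 𝒪 ⧸ J) := hmap ▸ Ideal.mem_map_of_mem q ha
    set v := (maximalIdeal (EntryRing 𝒪 ⧸ J)).toCotangent ⟨q a, hqa⟩ with hv
    have h1 : q (a - g v) ∈ maximalIdeal (EntryRing 𝒪 ⧸ J) ^ 2 := by
      rw [map_sub]
      exact (Ideal.toCotangent_eq (maximalIdeal (EntryRing 𝒪 ⧸ J))).mp (hgv v).symm
    rw [← hmap, ← Ideal.map_pow, ← Ideal.mem_comap, Ideal.comap_map_of_surjective' q
      (Ideal.Quotient.factor_surjective hIJ)] at h1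
    have hker : RingHom.ker q ≤ Ideal.span (s : Set (EntryRing 𝒪 ⧸ I)) := by
      rw [hq, Ideal.Quotient.factor_ker, hJdef, Ideal.map_sup, Ideal.map_quotient_self, bot_sup_eq,
        Ideal.map_map, ← ht, Ideal.submodule_span_eq, Ideal.map_span]
      refine Ideal.span_mono ?_
      rintro _ ⟨b, hb, rfl⟩
      simp only [s, Finset.coe_union, Finset.coe_image]
      exact Or.inr ⟨b, hb, rfl⟩
    have h2 : a = g v + (a - g v) := by ring
    rw [h2]
    refine add_mem (Submodule.mem_sup_left (Ideal.subset_span ?_)) ?_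
    · simp [s]
    · refine (sup_le ?_ (le_sup_of_le_left hker)) h1
      rw [smul_eq_mul, ← pow_two]
      exact le_sup_right
  · calc s.card ≤ _ + _ := Finset.card_union_le _ _
      _ ≤ T + t.card := add_le_add
        (Finset.card_image_le.trans (by rwa [Finset.card_univ, ← Nat.card_eq_fintype_card]))
        Finset.card_image_le

end Fermat.Agent.Deformation

end
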