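import Fermat.Agent.Deformation.Burnside
import Fermat.Agent.Deformation.Tangent
import Fermat.Agent.Deformation.CompleteLimit
import Fermat.Prelude.Def_GaloisRep_DeformationRingData

/-!
# Existence of universal deformation rings

For an absolutely irreducible residual representation and a deformation condition with finite
tangent space, the limit of the least admissible quotients is a universal deformation ring
(`nonempty_deformationRingData`).
-/

set_option autoImplicit false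

noncomputable section

open IsLocalRing MvPolynomial

namespace Fermat.Agent.Deformation

open GaloisRep (IsArtinianTestAlgebra IsDeformationCondition)

variable {𝒪 : Type} [CommRing 𝒪] [IsLocalRing 𝒪] [IsNoetherianRing 𝒪]
  [Finite (ResidueField 𝒪)]
  {𝒟 : ∀ ⦃A : Type⦄ [CommRing A] [IsLocalRing A] [Algebra 𝒪 A], GaloisRepAdic A → Prop}
  {ρbar : ResidualGaloisRep (ResidueField 𝒪)} {D : RigidData 𝒪}

omit [IsNoetherianRing 𝒪] in
/-- The augmentation ideal itself is admissible. -/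
lemma isAdm_augIdeal (hbar : 𝒟 (GaloisRepAdic.ofResidualGaloisRep ρbar))
    (hD : IsResMatrixRep ρbar D.M0) : IsAdm D 𝒟 (augIdeal D) := by
  have hloc : IsLocalHom (algebraMap 𝒪 (ResidueField 𝒪)) :=
    ⟨fun r hr => isUnit_of_map_unit (residue 𝒪) r hr⟩
  have hT : IsArtinianTestAlgebra 𝒪 (ResidueField 𝒪) := isTest_of_finite hloc fun a => by
    obtain ⟨r, hr⟩ := residue_surjective a
    refine ⟨r, ?_⟩
    rw [ResidueField.algebraMap_eq, hr, sub_self]
    exact zero_mem _
  have hres : ResidueField.map (algebraMap 𝒪 (ResidueField 𝒪)) = residue (ResidueField 𝒪) :=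
    Ideal.Quotient.ringHom_ext (RingHom.ext fun r => rfl)
  refine ⟨ResidueField 𝒪, inferInstance, inferInstance, inferInstance, hloc, D.M0, hT,
    ⟨⟨?_, ?_, ?_, ?_⟩, _, hD.ofResidual, hbar⟩, rfl⟩
  · rw [RigidData.IsLift, hres]
  · rw [D.ha]; simp
  · rw [D.ha]; simp
  · rw [D.hb]; simp

/-- For each `n ≥ 1` there is a least admissible ideal containing `augIdeal ^ n`. -/
lemma exists_least_adm (h𝒟 : IsDeformationCondition 𝒪 𝒟)
    (hbar : 𝒟 (GaloisRepAdic.ofResidualGaloisRep ρbar)) (hfin : GaloisRep.TangentFinite 𝒪 ρbar 𝒟)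
    (hD : IsResMatrixRep ρbar D.M0) {n : ℕ} (hn : n ≠ 0) :
    ∃ I, IsAdm D 𝒟 I ∧ augIdeal D ^ n ≤ I ∧
      ∀ J, IsAdm D 𝒟 J → augIdeal D ^ n ≤ J → I ≤ J := by
  obtain ⟨N, hN⟩ := exists_generators_bound h𝒟 hfin hD
  set bd := Nat.card (ResidueField 𝒪) ^ ∑ i ∈ Finset.range n, N ^ i with hbd
  have hbound : ∀ I, IsAdm D 𝒟 I → augIdeal D ^ n ≤ I →
      Nat.card (EntryRing 𝒪 ⧸ I) ≤ bd := by
    intro I hI hpow
    obtain ⟨_, _, g⟩ := hI.quotGood h𝒟
    obtain ⟨s, hs, hcard⟩ := hN I hI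
    refine IsTest.natCard_le g.isTest ?_ s hs hcard
    rw [maximalIdeal_quotient g.le, ← Ideal.map_pow, Ideal.map_mk_eq_bot_of_le hpow]
  let S : Set (Ideal (EntryRing 𝒪)) := {I | IsAdm D 𝒟 I ∧ augIdeal D ^ n ≤ I}
  have hne : S.Nonempty := ⟨augIdeal D, isAdm_augIdeal hbar hD, Ideal.pow_le_self hn⟩
  obtain ⟨I, ⟨hI, hIpow⟩, hmin⟩ :=
    (InvImage.wf (fun I : Ideal (EntryRing 𝒪) => bd - Nat.card (EntryRing 𝒪 ⧸ I))
      Nat.lt_wfRel.wf).has_min S hne
  refine ⟨I, hI, hIpow, fun J hJ hJpow => ?_⟩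
  have hIJ : IsAdm D 𝒟 (I ⊓ J) := hI.inf h𝒟 hJ
  have hIJpow : augIdeal D ^ n ≤ I ⊓ J := le_inf hIpow hJpow
  obtain ⟨_, _, g⟩ := hIJ.quotGood h𝒟
  obtain ⟨_, _, gI⟩ := hI.quotGood h𝒟
  have := g.finite
  have := gI.finite
  have hsurj := Ideal.Quotient.factor_surjective (inf_le_left : I ⊓ J ≤ I)
  have hle := Nat.card_le_card_of_surjective _ hsurj
  have h1 : ¬ bd - Nat.card (EntryRing 𝒪 ⧸ (I ⊓ J)) < bd - Nat.card (EntryRing 𝒪 ⧸ I) :=
    hmin (I ⊓ J) ⟨hIJ, hIJpow⟩
  have h2 := hbound _ hIJ hIJpow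
  have heq : Nat.card (EntryRing 𝒪 ⧸ (I ⊓ J)) = Nat.card (EntryRing 𝒪 ⧸ I) := by omega
  have hbij := hsurj.bijective_of_nat_card_le heq.le
  have hker : RingHom.ker (Ideal.Quotient.factor (inf_le_left : I ⊓ J ≤ I)) = ⊥ :=
    (RingHom.injective_iff_ker_eq_bot _).mp hbij.1
  rw [Ideal.Quotient.factor_ker] at hker
  intro x hx
  have h3 := Ideal.mem_map_of_mem (Ideal.Quotient.mk (I ⊓ J)) hx
  rw [hker, Submodule.mem_bot, Ideal.Quotient.eq_zero_iff_mem] at h3
  exact h3.2

end Fermat.Agent.Deformation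

namespace Fermat.Agent.Deformation

open GaloisRep (IsArtinianTestAlgebra IsDeformationCondition)

variable {𝒪 : Type} [CommRing 𝒪] [IsDomain 𝒪] [IsDiscreteValuationRing 𝒪]
  [IsAdicComplete (maximalIdeal 𝒪) 𝒪] [Finite (ResidueField 𝒪)]

/-- Universal deformation rings exist. -/
theorem nonempty_deformationRingData (ρbar : ResidualGaloisRep (ResidueField 𝒪))
    (𝒟 : ∀ ⦃A : Type⦄ [CommRing A] [IsLocalRing A] [Algebra 𝒪 A], GaloisRepAdic A → Prop)
    (habs : ρbar.IsAbsolutelyIrreducible) (h𝒟 : IsDeformationCondition 𝒪 𝒟)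
    (hbar : 𝒟 (GaloisRepAdic.ofResidualGaloisRep ρbar))
    (hfin : GaloisRep.TangentFinite 𝒪 ρbar 𝒟) :
    Nonempty (GaloisRep.DeformationRingData 𝒪 ρbar 𝒟) := by
  classical
  obtain ⟨D, hD⟩ := exists_rigidData habs
  -- the tower of ideals
  have hleast : ∀ n : ℕ, ∃ I : Ideal (EntryRing 𝒪), augIdeal D ^ n ≤ I ∧
      (n = 0 → I = ⊤) ∧ (n ≠ 0 → IsAdm D 𝒟 I) ∧
      (∀ J, IsAdm D 𝒟 J → augIdeal D ^ n ≤ J → n ≠ 0 → I ≤ J) := by
    intro n
    by_cases hn : n = 0
    · exact ⟨⊤, le_top, fun _ => rfl, fun h => absurd hn h, fun _ _ _ h => absurd hn h⟩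
    · obtain ⟨I, h1, h2, h3⟩ := exists_least_adm h𝒟 hbar hfin hD hn
      exact ⟨I, h2, fun h => absurd h hn, fun _ => h1, fun J hJ hJ' _ => h3 J hJ hJ'⟩
  choose I hpow htop hadm hmin using hleast
  have hI_le : ∀ n, n ≠ 0 → I n ≤ augIdeal D := fun n hn => by
    obtain ⟨_, _, g⟩ := (hadm n hn).quotGood h𝒟
    exact g.le
  have hone : I 1 = augIdeal D :=
    le_antisymm (hI_le 1 one_ne_zero) (by simpa using hpow 1)
  have hstep : ∀ n, I n = I (n + 1) ⊔ augIdeal D ^ n := by
    intro n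
    rcases Nat.eq_zero_or_pos n with rfl | hn
    · simp [htop 0 rfl]
    · refine le_antisymm (hmin n _ ((hadm (n + 1) (by omega)).of_le h𝒟 le_sup_left
        (sup_le (hI_le _ (by omega)) (Ideal.pow_le_self (by omega)))) le_sup_right (by omega))
        (sup_le (hmin (n + 1) _ (hadm n (by omega))
          ((Ideal.pow_le_pow_right (Nat.le_succ n)).trans (hpow n)) (by omega)) (hpow n))
  have hanti : ∀ n, I (n + 1) ≤ I n := fun n => by rw [hstep n]; exact le_sup_left
  have hfg : ∃ s : Finset (EntryRing 𝒪), (∀ x ∈ s, x ∈ augIdeal D) ∧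
      augIdeal D ≤ Ideal.span (s : Set (EntryRing 𝒪)) ⊔ I 2 := by
    obtain ⟨_, _, g⟩ := (hadm 2 (by omega)).quotGood h𝒟
    have := g.finite
    have hlift : ∀ a : (augIdeal D).map (Ideal.Quotient.mk (I 2)),
        ∃ x, x ∈ augIdeal D ∧ Ideal.Quotient.mk (I 2) x = a := fun a =>
      (Ideal.mem_map_iff_of_surjective _ Ideal.Quotient.mk_surjective).mp a.2
    choose f hf hf' using hlift
    have := Fintype.ofFinite ((augIdeal D).map (Ideal.Quotient.mk (I 2)))
    refine ⟨Finset.univ.image f, fun x hx => ?_, fun x hx => ?_⟩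
    · obtain ⟨a, -, rfl⟩ := Finset.mem_image.mp hx
      exact hf a
    · have hx' : Ideal.Quotient.mk (I 2) x ∈ (augIdeal D).map (Ideal.Quotient.mk (I 2)) :=
        Ideal.mem_map_of_mem _ hx
      have h1 : x - f ⟨_, hx'⟩ ∈ I 2 := Ideal.Quotient.eq.mp (hf' ⟨_, hx'⟩).symm
      have h2 : x = f ⟨_, hx'⟩ + (x - f ⟨_, hx'⟩) := by ring
      rw [h2]
      exact add_mem (Submodule.mem_sup_left (Ideal.subset_span (by simp)))
        (Submodule.mem_sup_right h1)
  obtain ⟨L⟩ := nonempty_limitRing 𝒪 (augIdeal D) (augIdeal_approx D)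
    (fun _ hr => algebraMap_mem_augIdeal D hr) I hpow hstep hone hfg
  -- separation
  have hsep : ∀ r s : L.R, (∀ n, L.π n r = L.π n s) → r = s := by
    intro r s h
    rw [← sub_eq_zero]
    refine IsHausdorff.haus (inferInstance : IsHausdorff (maximalIdeal L.R) L.R) _ fun n => ?_
    rw [SModEq.zero, smul_eq_mul, Ideal.mul_top, ← L.ker_π, RingHom.mem_ker, map_sub, h, sub_self]
  -- the tautological matrices
  have hentry : ∀ t : EntryIdx, ∃ r : L.R, ∀ n, L.π n r = Ideal.Quotient.mk (I n) (X t) :=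
    fun t => L.exists_lift _ fun n h => Ideal.Quotient.factor_mk _ _
  choose e he using hentry
  let E : GQ → M2 L.R := fun σ => Matrix.of fun i j => e (σ, i, j)
  have hEπ : ∀ n σ, (E σ).map (L.π n) = (tautMat 𝒪 σ).map (Ideal.Quotient.mk (I n)) :=
    fun n σ => Matrix.ext fun i j => he (σ, i, j) n
  have hsub0 : Subsingleton (EntryRing 𝒪 ⧸ I 0) :=
    Ideal.Quotient.subsingleton_iff.mpr (htop 0 rfl)
  have hext : ∀ u v : M2 L.R, (∀ n, n ≠ 0 → u.map (L.π n) = v.map (L.π n)) → u = v := by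
    intro u v h
    refine Matrix.ext fun i j => hsep _ _ fun n => ?_
    rcases eq_or_ne n 0 with rfl | hn
    · exact Subsingleton.elim _ _
    · exact congrFun (congrFun (h n hn) i) j
  let M : GQ →* M2 L.R :=
    { toFun := E
      map_one' := hext _ _ fun n hn => by
        obtain ⟨_, _, g⟩ := (hadm n hn).quotGood h𝒟
        obtain ⟨Mn, -, hMn⟩ := g.exists_good
        rw [hEπ, ← hMn, map_one, Matrix.map_one _ (map_zero (L.π n)) (map_one (L.π n))]
      map_mul' := fun σ τ => hext _ _ fun n hn => by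
        obtain ⟨_, _, g⟩ := (hadm n hn).quotGood h𝒟
        obtain ⟨Mn, -, hMn⟩ := g.exists_good
        rw [Matrix.map_mul, hEπ, hEπ, hEπ, ← hMn, ← hMn, ← hMn, map_mul] }
  have hMπ : ∀ n σ, (M σ).map (L.π n) = (tautMat 𝒪 σ).map (Ideal.Quotient.mk (I n)) := hEπ
  have hevM : ∀ n (p : EntryRing 𝒪), L.π n (repEval M p) = Ideal.Quotient.mk (I n) p := by
    intro n p
    have h1 : (L.π n).comp (repEval M) = Ideal.Quotient.mkₐ 𝒪 (I n) := by
      refine MvPolynomial.algHom_ext fun t => ?_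
      simp only [AlgHom.comp_apply, repEval, aeval_X]
      exact he t n
    exact AlgHom.congr_fun h1 p
  have happrox : ∀ n (r : L.R), ∃ p : EntryRing 𝒪, r - repEval M p ∈ maximalIdeal L.R ^ n := by
    intro n r
    obtain ⟨p, hp⟩ := Ideal.Quotient.mk_surjective (L.π n r)
    exact ⟨p, by rw [← L.ker_π, RingHom.mem_ker, map_sub, hevM, hp, sub_self]⟩
  -- continuity
  have hcont : MatCont M := by
    intro n
    rcases eq_or_ne n 0 with rfl | hn
    · exact ⟨⊥, inferInstance, fun σ _ i j => by simp⟩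
    · obtain ⟨_, _, g⟩ := (hadm n hn).quotGood h𝒟
      obtain ⟨Mn, hMn, hMnσ⟩ := g.exists_good
      obtain ⟨ρn, hρn, -⟩ := hMn.isD
      have := g.isTest.isArtinian
      obtain ⟨m, hm⟩ := exists_maximalIdeal_pow_eq_bot (EntryRing 𝒪 ⧸ I n)
      obtain ⟨K, hK, hK'⟩ := hρn.matCont m
      refine ⟨K, hK, fun σ hσ i j => ?_⟩
      have h1 := hK' σ hσ i j
      rw [hm, Submodule.mem_bot, hMnσ, ← hMπ] at h1
      rw [← L.ker_π, RingHom.mem_ker, map_sub, ← h1, ← Matrix.map_apply (M := (1 : M2 L.R))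
        (f := L.π n), Matrix.map_one _ (map_zero (L.π n)) (map_one (L.π n))]
      rfl
  -- normality
  have hlift : D.IsLift M := by
    refine MonoidHom.ext fun σ => Matrix.ext fun i j => ?_
    obtain ⟨r, hr⟩ := residue_surjective (D.M0 σ i j)
    simp only [mapRep_apply, Matrix.map_apply]
    rw [← hr, ResidueField.map_residue, ← sub_eq_zero, ← map_sub, residue_eq_zero_iff,
      ← pow_one (maximalIdeal L.R), ← L.ker_π, RingHom.mem_ker, map_sub, AlgHom.commutes]
    have h1 : L.π 1 (M σ i j) = Ideal.Quotient.mk (I 1) (X (σ, i, j)) := he (σ, i, j) 1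
    rw [h1, ← Ideal.Quotient.mk_algebraMap, ← map_sub, Ideal.Quotient.eq_zero_iff_mem, hone,
      augIdeal, RingHom.mem_ker, map_sub, AlgHom.commutes, psi0, repEval, aeval_X, ← hr]
    exact sub_self _
  have hevalπ : ∀ n (x : GQ →₀ 𝒪), (evalComb (M : GQ → M2 L.R) x).map (L.π n) =
      evalComb (fun σ => (tautMat 𝒪 σ).map (Ideal.Quotient.mk (I n))) x := by
    intro n x
    refine (evalComb_map (𝒪 := 𝒪) (L.π n : L.R →+* EntryRing 𝒪 ⧸ I n)
      (fun r => AlgHom.commutes (L.π n) r) (M : GQ → M2 L.R) x).trans ?_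
    exact congrArg (fun F => evalComb F x) (funext (hMπ n))
  have hnormalπ : ∀ n, n ≠ 0 →
      evalComb (fun σ => (tautMat 𝒪 σ).map (Ideal.Quotient.mk (I n))) D.a 0 1 = 0 ∧
      evalComb (fun σ => (tautMat 𝒪 σ).map (Ideal.Quotient.mk (I n))) D.a 1 0 = 0 ∧
      evalComb (fun σ => (tautMat 𝒪 σ).map (Ideal.Quotient.mk (I n))) D.b 0 1 = 1 := by
    intro n hn
    obtain ⟨_, _, g⟩ := (hadm n hn).quotGood h𝒟
    obtain ⟨Mn, hMn, hMnσ⟩ := g.exists_good
    rw [← funext hMnσ]
    exact ⟨hMn.normal.a01, hMn.normal.a10, hMn.normal.b01⟩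
  have hnorm : D.IsNormal M := by
    refine ⟨hlift, hsep _ _ fun n => ?_, hsep _ _ fun n => ?_, hsep _ _ fun n => ?_⟩
    all_goals rcases eq_or_ne n 0 with rfl | hn
    all_goals first | exact Subsingleton.elim _ _ | skip
    · rw [map_zero, ← Matrix.map_apply (f := L.π n), hevalπ]; exact (hnormalπ n hn).1
    · rw [map_zero, ← Matrix.map_apply (f := L.π n), hevalπ]; exact (hnormalπ n hn).2.1
    · rw [map_one, ← Matrix.map_apply (f := L.π n), hevalπ]; exact (hnormalπ n hn).2.2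
  let ρ : GaloisRepAdic L.R := ofMatrix M hcont
  have hρ : IsMatrixRep ρ M := isMatrixRep_ofMatrix M hcont
  refine ⟨{ R := L.R, residue_surjective := L.residue_surjective, absIrr := habs, ρ := ρ,
            isOfType := ?_, residual_isEquiv := ?_, universal := ?_ }⟩
  · -- the universal representation is of type `𝒟`
    refine (h𝒟.iff_forall_surjective inferInstance L.residue_surjective ρ).mpr ?_
    intro B _ _ _ hB q hq hqs
    have := hB.isLocalHom
    have := hB.isArtinian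
    obtain ⟨n, hn⟩ := exists_maximalIdeal_pow_eq_bot B
    have hn1 : maximalIdeal B ^ (n + 1) = ⊥ :=
      le_bot_iff.mp (hn ▸ Ideal.pow_le_pow_right (Nat.le_succ n))
    have hkill : ∀ r ∈ maximalIdeal L.R ^ (n + 1), q r = 0 := by
      intro r hr
      have h1 : (maximalIdeal L.R ^ (n + 1)).map (q : L.R →+* B) ≤ maximalIdeal B ^ (n + 1) := by
        rw [Ideal.map_pow]
        exact Ideal.pow_right_mono (((local_hom_TFAE (q : L.R →+* B)).out 0 2).mp hq) _
      have h2 := h1 (Ideal.mem_map_of_mem (q : L.R →+* B) hr)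
      rw [hn1] at h2
      exact h2
    let ψ : (EntryRing 𝒪 ⧸ I (n + 1)) →ₐ[𝒪] B :=
      Ideal.Quotient.liftₐ (I (n + 1)) (q.comp (repEval M)) (fun p hp => by
        refine hkill _ ?_
        rw [← L.ker_π, RingHom.mem_ker]
        show L.π (n + 1) (repEval M p) = 0
        rw [hevM, Ideal.Quotient.eq_zero_iff_mem]
        exact hp)
    obtain ⟨_, _, g⟩ := (hadm (n + 1) (by omega)).quotGood h𝒟
    obtain ⟨Mn, hMn, hMnσ⟩ := g.exists_good
    obtain ⟨ρn, hρn, hDn⟩ := (hMn.map h𝒟 g.isTest hB ψ).isD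
    have hmat : mapRep (ψ : _ →+* B) Mn = mapRep (q : L.R →+* B) M := by
      refine MonoidHom.ext fun σ => Matrix.ext fun i j => ?_
      rw [mapRep_apply, mapRep_apply, hMnσ σ]
      show q (repEval M (X (σ, i, j))) = q (M σ i j)
      simp [repEval]
    exact h𝒟.of_isEquiv hB (hρn.isEquiv (hmat ▸ hρ.baseChangeAlong (q : L.R →+* B) hq)) hDn
  · -- the residual representation
    rw [isResEquiv_iff_areConj hρ.residual (hD.baseChangeAlong _), hlift]
    exact AreConj.refl _
  · -- universality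
    intro A _ _ _ _ _ _ hAres ρA hDA hAbar
    obtain ⟨M1, hM1⟩ := exists_isMatrixRep ρA
    obtain ⟨U1, hU1⟩ := D.exists_isLift_conj
      ((isResEquiv_iff_areConj hM1.residual (hD.baseChangeAlong _)).mp hAbar)
    obtain ⟨U2, hU2⟩ := hU1.exists_normal
    set MA := conjRep U2 (conjRep U1 M1) with hMAdef
    have hMA : IsMatrixRep ρA MA := (hM1.conjRep U1).conjRep U2
    have : Finite (A ⧸ maximalIdeal A) := finite_residueField hAres
    -- kernels
    have hkerA : ∀ n, ∀ p ∈ I n, repEval MA p ∈ maximalIdeal A ^ n := by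
      intro n p hp
      rcases eq_or_ne n 0 with rfl | hn
      · simp
      have : Finite (A ⧸ maximalIdeal A ^ n) :=
        Ideal.finite_quotient_pow (IsNoetherian.noetherian _) n
      have := isLocalRing_quotient (MM := maximalIdeal A) (K := maximalIdeal A ^ n) le_rfl
        (Ideal.pow_le_self hn)
      have hTn : IsArtinianTestAlgebra 𝒪 (A ⧸ maximalIdeal A ^ n) :=
        isTest_quotient (Ideal.pow_le_self hn) (exists_sub_algebraMap_mem hAres)
          (fun r hr => (IsLocalRing.mem_maximalIdeal _).mpr fun h =>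
            (IsLocalRing.mem_maximalIdeal r).mp hr (isUnit_of_map_unit (algebraMap 𝒪 A) r h))
      have := hTn.isLocalHom
      let qn := Ideal.Quotient.mkₐ 𝒪 (maximalIdeal A ^ n)
      have hqn : IsLocalHom (qn : A →+* A ⧸ maximalIdeal A ^ n) :=
        IsLocalRing.local_hom_TFAE (qn : A →+* A ⧸ maximalIdeal A ^ n) |>.out 0 2 |>.mpr (by
          rw [maximalIdeal_quotient (MM := maximalIdeal A) (Ideal.pow_le_self hn)]
          exact le_rfl)
      have hgood : IsGood D 𝒟 (mapRep (qn : A →+* A ⧸ maximalIdeal A ^ n) MA) :=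
        ⟨hU2.map qn, _, hMA.baseChangeAlong _ hqn,
          (h𝒟.iff_forall_surjective inferInstance hAres ρA).mp hDA hTn qn hqn
            (Ideal.Quotient.mkₐ_surjective 𝒪 _)⟩
      have hbot : maximalIdeal (A ⧸ maximalIdeal A ^ n) ^ n = ⊥ := by
        rw [maximalIdeal_quotient (MM := maximalIdeal A) (Ideal.pow_le_self hn), ← Ideal.map_pow,
          Ideal.map_quotient_self]
      have hJ : IsAdm D 𝒟 (RingHom.ker (repEval (𝒪 := 𝒪)
          (mapRep (qn : A →+* A ⧸ maximalIdeal A ^ n) MA))) :=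
        ⟨_, inferInstance, inferInstance, inferInstance, inferInstance, _, hTn, hgood, rfl⟩
      have h1 := hmin n _ hJ (hgood.normal.lift.pow_le_ker hbot) hn hp
      rw [RingHom.mem_ker, ← repEval_comp] at h1
      exact Ideal.Quotient.eq_zero_iff_mem.mp h1
    let φn : ∀ n, L.R →ₐ[𝒪] A ⧸ maximalIdeal A ^ n := fun n =>
      (Ideal.Quotient.liftₐ (I n) ((Ideal.Quotient.mkₐ 𝒪 (maximalIdeal A ^ n)).comp (repEval MA))
        (fun p hp => Ideal.Quotient.eq_zero_iff_mem.mpr (hkerA n p hp))).comp (L.π n)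
    have hφn : ∀ n p, φn n (repEval M p) =
        Ideal.Quotient.mk (maximalIdeal A ^ n) (repEval MA p) := fun n p => by
      simp only [φn, AlgHom.comp_apply]
      erw [hevM]
      rfl
    have hφnkill : ∀ n, ∀ r ∈ maximalIdeal L.R ^ n, φn n r = 0 := fun n r hr => by
      rw [← L.ker_π, RingHom.mem_ker] at hr
      simp only [φn, AlgHom.comp_apply, hr, map_zero]
    have hcompat : ∀ {m n : ℕ} (hle : m ≤ n),
        (Ideal.Quotient.factorₐ 𝒪 (Ideal.pow_le_pow_right hle)).comp (φn n) = φn m := by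
      intro m n hle
      refine AlgHom.ext fun r => ?_
      obtain ⟨p, hp⟩ := happrox n r
      obtain ⟨d, rfl⟩ : ∃ d, r = repEval M p + d := ⟨r - repEval M p, by ring⟩
      rw [add_sub_cancel_left] at hp
      rw [AlgHom.comp_apply, map_add, map_add, hφnkill n d hp, map_zero, add_zero, map_add,
        hφnkill m d (Ideal.pow_le_pow_right hle hp), add_zero, hφn, hφn]
      rfl
    let φ : L.R →ₐ[𝒪] A := IsAdicComplete.liftAlgHom (maximalIdeal A) φn hcompat
    have hφ : ∀ n r, Ideal.Quotient.mk (maximalIdeal A ^ n) (φ r) = φn n r := fun n r =>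
      IsAdicComplete.mk_liftAlgHom _ φn hcompat n r
    have hsepA : ∀ x y : A, (∀ n, Ideal.Quotient.mk (maximalIdeal A ^ n) x =
        Ideal.Quotient.mk (maximalIdeal A ^ n) y) → x = y := by
      intro x y h
      rw [← sub_eq_zero]
      refine IsHausdorff.haus (inferInstance : IsHausdorff (maximalIdeal A) A) _ fun n => ?_
      rw [SModEq.zero, smul_eq_mul, Ideal.mul_top]
      exact Ideal.Quotient.eq.mp (h n)
    have hφloc : IsLocalHom (φ : L.R →+* A) := by
      refine ⟨fun r hr => ?_⟩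
      by_contra hnr
      have h1 : Ideal.Quotient.mk (maximalIdeal A ^ 1) (φ r) = 0 := by
        rw [hφ]
        exact hφnkill 1 r (by rw [pow_one]; exact (IsLocalRing.mem_maximalIdeal r).mpr hnr)
      rw [Ideal.Quotient.eq_zero_iff_mem, pow_one] at h1
      exact (IsLocalRing.mem_maximalIdeal _).mp h1 hr
    have hmatA : mapRep (φ : L.R →+* A) M = MA := by
      refine MonoidHom.ext fun σ => Matrix.ext fun i j => hsepA _ _ fun n => ?_
      have h1 := hφn n (X (σ, i, j))
      simp only [repEval, aeval_X] at h1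
      rw [← h1]
      exact hφ n _
    refine ⟨φ, ⟨hφloc, hMA.isEquiv (hmatA ▸ hρ.baseChangeAlong _ hφloc) |>.elim
      fun e => ⟨e.symm⟩⟩, ?_⟩
    rintro ψ ⟨hψ, heq⟩
    have hψM : mapRep (ψ : L.R →+* A) M = MA :=
      (hnorm.map ψ).eq_of_areConj hU2
        ((isEquiv_iff_areConj (hρ.baseChangeAlong (ψ : L.R →+* A) hψ) hMA).mp heq)
    refine AlgHom.ext fun r => hsepA _ _ fun n => ?_
    obtain ⟨p, hp⟩ := happrox n r
    have hcomp : ∀ f : L.R →ₐ[𝒪] A, IsLocalHom (f : L.R →+* A) →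
        mapRep (f : L.R →+* A) M = MA →
        Ideal.Quotient.mk (maximalIdeal A ^ n) (f r) =
          Ideal.Quotient.mk (maximalIdeal A ^ n) (repEval MA p) := by
      intro f hf hfM
      have h2 : f (repEval M p) = repEval MA p := by
        rw [← AlgHom.comp_apply, repEval_comp, hfM]
      rw [← h2, Ideal.Quotient.eq, ← map_sub]
      have h3 : (maximalIdeal L.R ^ n).map (f : L.R →+* A) ≤ maximalIdeal A ^ n := by
        rw [Ideal.map_pow]
        exact Ideal.pow_right_mono (((local_hom_TFAE (f : L.R →+* A)).out 0 2).mp hf) _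
      exact h3 (Ideal.mem_map_of_mem (f : L.R →+* A) hp)
    rw [hcomp ψ hψ hψM, hcomp φ hφloc hmatA]

end Fermat.Agent.Deformation

end
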